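import Fermat.Agent.ResidualThree.WeightTwo.WeightOne

/-!
# The Atkin–Lehner operator at `3` on weight-one functions of character `χ₋₃`

For `N = Q r`, `Q` a positive power of `3` and `r` prime to `3`, the matrices
`(Q a, b; N c, Q d)` of determinant `Q` carry `f` to `χ(b) Φ`; the function `Φ` again has level `N`
and character `χ₋₃`, and `T_ℓ` commutes with `f ↦ Φ` up to `χ(ℓ)`.
-/

noncomputable section

open CongruenceSubgroup UpperHalfPlane
open scoped ModularForm MatrixGroups Manifold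

namespace Fermat.Agent.ResidualThree

/-- The matrices of the Atkin–Lehner coset. -/
def IsALMatrix (Q N : ℕ) (M : Matrix (Fin 2) (Fin 2) ℤ) : Prop :=
  M.det = (Q : ℤ) ∧ (N : ℤ) ∣ M 1 0 ∧ (Q : ℤ) ∣ M 0 0 ∧ (Q : ℤ) ∣ M 1 1

/-- `Φ` is the image of `f` under the Atkin–Lehner operator. -/
def IsALImage (Q N : ℕ) (f Φ : ℍ → ℂ) : Prop :=
  ∀ M, IsALMatrix Q N M → f ∣[(1 : ℤ)] intGL M = chiC (M 0 1) • Φ

variable {Q N r : ℕ} {f Φ : ℍ → ℂ}

/-- The upper right entry of a matrix of the coset is prime to three. -/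
theorem IsALMatrix.not_three_dvd (hQ : 3 ∣ Q) (hN : N = Q * r) {M : Matrix (Fin 2) (Fin 2) ℤ}
    (h : IsALMatrix Q N M) (hQ0 : Q ≠ 0) : ¬ (3 : ℤ) ∣ M 0 1 := by
  obtain ⟨hd, ⟨c, hc⟩, ⟨a, ha⟩, ⟨d, hd'⟩⟩ := h
  rw [Matrix.det_fin_two, hc, ha, hd', hN] at hd
  push_cast at hd
  have e : (Q : ℤ) * a * d - M 0 1 * r * c = 1 := by
    apply mul_left_cancel₀ (Int.natCast_ne_zero.2 hQ0)
    linear_combination hd
  intro h3
  have : (3 : ℤ) ∣ 1 := e ▸ dvd_sub
    (dvd_mul_of_dvd_left (dvd_mul_of_dvd_left (by exact_mod_cast hQ) _) _)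
    (dvd_mul_of_dvd_left (dvd_mul_of_dvd_left h3 _) _)
  norm_num at this

/-- Existence of the operator. -/
theorem exists_alImage (hQ : 3 ∣ Q) (hQ0 : Q ≠ 0) (hr : Nat.Coprime Q r) (hN : N = Q * r)
    (hf : IsW1 N f) : ∃ Φ, IsALImage Q N f Φ ∧ IsW1 N Φ ∧ (f ≠ 0 → Φ ≠ 0) := by
  obtain ⟨x, y, hxy⟩ := (Int.isCoprime_iff_nat_coprime.2 (by simpa using hr) :
    IsCoprime (Q : ℤ) (r : ℤ))
  set w : Matrix (Fin 2) (Fin 2) ℤ := !![(Q : ℤ) * x, -y; (N : ℤ), (Q : ℤ)] with hw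
  have hQpos : (0 : ℤ) < Q := by exact_mod_cast Nat.pos_of_ne_zero hQ0
  have hwdet : w.det = Q := by
    rw [hw, Matrix.det_fin_two_of, hN]; push_cast; linear_combination (Q : ℤ) * hxy
  have hwm : IsALMatrix Q N w := ⟨hwdet, by simp [hw], by simp [hw], by simp [hw]⟩
  have hwpos : 0 < w.det := hwdet ▸ hQpos
  have h3y : ¬ (3 : ℤ) ∣ -y := by simpa [hw] using hwm.not_three_dvd hQ hN hQ0
  set Φ := chiC (-y) • (f ∣[(1 : ℤ)] intGL w) with hΦdef
  have hQ3 : (3 : ℤ) ∣ (Q : ℤ) := by exact_mod_cast hQ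
  have main : IsALImage Q N f Φ := by
    intro M hM
    obtain ⟨hMd, ⟨c, hc⟩, ⟨a, ha⟩, ⟨d, hd⟩⟩ := id hM
    -- `M = γ w`
    let γ : Matrix (Fin 2) (Fin 2) ℤ :=
      !![(Q : ℤ) * a - r * M 0 1, a * y + x * M 0 1; (N : ℤ) * c - N * d, r * c * y + Q * d * x]
    have hγw : γ * w = M := by
      have e00 : ((γ * w) 0 0) = M 0 0 := by
        simp [γ, hw, Matrix.mul_apply, Fin.sum_univ_two, ha]
        rw [hN]; push_cast
        linear_combination (Q : ℤ) * a * hxy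
      have e01 : ((γ * w) 0 1) = M 0 1 := by
        simp [γ, hw, Matrix.mul_apply, Fin.sum_univ_two]
        linear_combination M 0 1 * hxy
      have e10 : ((γ * w) 1 0) = M 1 0 := by
        simp [γ, hw, Matrix.mul_apply, Fin.sum_univ_two, hc]
        rw [hN]; push_cast
        linear_combination ((Q : ℤ) * r * c) * hxy
      have e11 : ((γ * w) 1 1) = M 1 1 := by
        simp [γ, hw, Matrix.mul_apply, Fin.sum_univ_two, hd]
        rw [hN]; push_cast
        linear_combination (Q : ℤ) * d * hxy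
      ext i j; fin_cases i <;> fin_cases j <;> assumption
    have hγd : γ.det = 1 := by
      have := congrArg Matrix.det hγw
      rw [Matrix.det_mul, hwdet, hMd] at this
      exact mul_right_cancel₀ hQpos.ne' (by rw [this, one_mul])
    have hslash := hf.slash ⟨γ, hγd⟩ (by
      rw [Gamma0_mem, ZMod.intCast_zmod_eq_zero_iff_dvd]
      simp [γ, ← mul_sub])
    rw [ModularForm.SL_slash, ← intGL_coe_SL] at hslash
    rw [← hγw, intGL_mul (by rw [hγd]; exact one_ne_zero) hwpos.ne', SlashAction.slash_mul, hslash,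
      smul_slash_intGL hwpos, hΦdef, smul_smul]
    congr 1
    rw [hγw]
    change chiC (γ 1 1) = _
    have h1 : chiC (γ 1 1) = chiC ((r : ℤ) * c * y) :=
      chiC_congr (by
        simp only [γ, Matrix.of_apply, Matrix.cons_val', Matrix.cons_val_one,
          Matrix.cons_val_fin_one]
        rw [show (r : ℤ) * c * y + Q * d * x - r * c * y = Q * (d * x) by ring]
        exact dvd_mul_of_dvd_left hQ3 _)
    rw [Matrix.det_fin_two, hc, ha, hd, hN] at hMd
    push_cast at hMd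
    have e : (Q : ℤ) * a * d - M 0 1 * r * c = 1 := by
      apply mul_left_cancel₀ hQpos.ne'
      linear_combination hMd
    rw [h1, ← chiC_mul]
    have h2 : chiC (M 0 1 * -((r : ℤ) * c)) = 1 := by
      rw [← chiC_one]
      exact chiC_congr (by
        rw [show M 0 1 * -((r : ℤ) * c) - 1 = -((Q : ℤ) * (a * d)) by linear_combination e]
        exact dvd_neg.2 (dvd_mul_of_dvd_left hQ3 _))
    have hb := hM.not_three_dvd hQ hN hQ0
    rw [show (r : ℤ) * c * y = -((r : ℤ) * c) * -y by ring, chiC_mul, chiC_mul]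
    rw [chiC_mul] at h2
    calc chiC (-((r : ℤ) * c)) * chiC (-y)
        = (chiC (M 0 1) * chiC (M 0 1)) * chiC (-((r : ℤ) * c)) * chiC (-y) := by
          rw [chiC_mul_self hb, one_mul]
      _ = chiC (M 0 1) * (chiC (M 0 1) * chiC (-((r : ℤ) * c))) * chiC (-y) := by ring
      _ = chiC (M 0 1) * chiC (-y) := by rw [h2, mul_one]
  have hW1 : IsW1 N Φ := by
    refine ⟨(hf.mdiff.slash 1 _).const_smul _, fun γ hγ => ?_, fun c hc g hg => ?_⟩
    · obtain ⟨k, hk⟩ : (N : ℤ) ∣ γ 1 0 := by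
        rw [← ZMod.intCast_zmod_eq_zero_iff_dvd]
        exact Gamma0_mem.1 hγ
      have hMem : IsALMatrix Q N (w * (γ : Matrix (Fin 2) (Fin 2) ℤ)) := by
        refine ⟨by rw [Matrix.det_mul, hwdet, γ.2, mul_one], ?_, ?_, ?_⟩ <;>
          simp [hw, Matrix.mul_apply, Fin.sum_univ_two, hk]
        · exact dvd_mul_of_dvd_right (dvd_mul_right _ _) _
        · exact dvd_add (dvd_mul_of_dvd_left (dvd_mul_right _ _) _)
            (dvd_neg.2 (dvd_mul_of_dvd_right
              (dvd_mul_of_dvd_left (by rw [hN]; exact_mod_cast dvd_mul_right Q r) _) _))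
        · exact dvd_mul_of_dvd_left (by rw [hN]; exact_mod_cast dvd_mul_right Q r) _
      have h := main _ hMem
      rw [ModularForm.SL_slash, ← intGL_coe_SL, hΦdef,
        smul_slash_intGL (by rw [γ.2]; exact one_pos),
        ← SlashAction.slash_mul, ← intGL_mul hwpos.ne' (by rw [γ.2]; exact one_ne_zero), h,
        smul_smul, hΦdef, smul_smul, smul_smul]
      congr 1
      have hb : chiC ((w * (γ : Matrix (Fin 2) (Fin 2) ℤ)) 0 1) = chiC (-y * γ 1 1) := by
        refine chiC_congr ?_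
        simp [hw, Matrix.mul_apply, Fin.sum_univ_two]
        exact dvd_mul_of_dvd_left (dvd_mul_of_dvd_left hQ3 _) _
      rw [hb, chiC_mul]
      calc chiC (-y) * (chiC (-y) * chiC (γ 1 1)) * chiC (-y)
          = (chiC (-y) * chiC (-y)) * (chiC (γ 1 1) * chiC (-y)) := by ring
        _ = chiC (γ 1 1) * chiC (-y) := by rw [chiC_mul_self h3y, one_mul]
    · rw [hΦdef, ModularForm.smul_slash]
      exact (isZeroAt_slash_intGL hf.zero w hc g hg).smul _
  refine ⟨Φ, main, hW1, fun hne h0 => hne ?_⟩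
  have h1 : f ∣[(1 : ℤ)] intGL w = 0 := by
    have := congrArg (fun F => chiC (-y) • F) h0
    simp only [hΦdef, smul_smul, chiC_mul_self h3y, one_smul, smul_zero] at this
    exact this
  have h2 := congrArg (fun F => F ∣[(1 : ℤ)] (intGL w)⁻¹) h1
  simp only [← SlashAction.slash_mul, mul_inv_cancel, SlashAction.slash_one,
    SlashAction.zero_slash] at h2
  exact h2

/-- The operator intertwines `T_ℓ` with `χ(ℓ) T_ℓ`. -/
theorem IsALImage.heckeOne (hQ : 3 ∣ Q) (hN : N = Q * r) (hQ3 : ∀ p : ℕ, p.Prime → p ∣ Q → p = 3)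
    (hQ0 : Q ≠ 0) (hΦ : IsALImage Q N f Φ) {ℓ : ℕ} (hℓ : ℓ.Prime) (hℓN : ¬ ℓ ∣ N) :
    IsALImage Q N (ResidualThree.heckeOne ℓ f) (chiC ℓ • ResidualThree.heckeOne ℓ Φ) := by
  intro M hM
  obtain ⟨hMd, hM10, hM00, hM11⟩ := id hM
  have h3N : 3 ∣ N := hN ▸ dvd_mul_of_dvd_left hQ r
  have hℓ3 : ℓ ≠ 3 := fun h => hℓN (h ▸ h3N)
  have hℓQ : ¬ ℓ ∣ Q := fun h => hℓ3 (hQ3 ℓ hℓ h)
  have hℓℓ := chiC_natCast_ne hℓ hℓ3
  rw [smul_smul, mul_comm]
  refine heckeOne_slash hℓ f Φ (IsALMatrix Q N) (fun M => chiC (M 0 1)) hΦ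
    (by rw [hMd]; exact_mod_cast Nat.pos_of_ne_zero hQ0)
    (by rw [hMd]; exact_mod_cast hℓQ) (chiC ℓ) fun i k M' h hd => ?_
  have e00 := entries_of_hRep_mul h 0 0
  have e01 := entries_of_hRep_mul h 0 1
  have e10 := entries_of_hRep_mul h 1 0
  have e11 := entries_of_hRep_mul h 1 1
  have hQN : (Q : ℤ) ∣ (N : ℤ) := by rw [hN]; exact_mod_cast dvd_mul_right Q r
  have hcan : ∀ x : ℤ, (Q : ℤ) ∣ (ℓ : ℤ) * x → (Q : ℤ) ∣ x := fun x hx =>
    natCast_dvd_of_coprime_mul hℓ hℓQ hx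
  have hcanN : ∀ x : ℤ, (N : ℤ) ∣ (ℓ : ℤ) * x → (N : ℤ) ∣ x := fun x hx =>
    natCast_dvd_of_coprime_mul hℓ hℓN hx
  have hM'10 : (N : ℤ) ∣ M' 1 0 := by
    rcases i with _ | i <;> rcases k with _ | k <;> simp [hRep] at e10
    · exact hcanN _ (by rw [mul_comm, ← e10]; exact hM10)
    · exact e10 ▸ hM10
    · exact hcanN _ (by rw [mul_comm, ← e10]; exact dvd_mul_of_dvd_right hM10 _)
    · rw [← e10]; exact dvd_mul_of_dvd_right hM10 _
  have hM10Q := hQN.trans hM10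
  have hM'00 : (Q : ℤ) ∣ M' 0 0 := by
    rcases i with _ | i <;> rcases k with _ | k <;> simp [hRep] at e00
    · exact hcan _ (by rw [mul_comm, ← e00]; exact dvd_mul_of_dvd_right hM00 _)
    · exact e00 ▸ dvd_mul_of_dvd_right hM00 _
    · exact hcan _ (by rw [mul_comm, ← e00]; exact dvd_add hM00 (dvd_mul_of_dvd_right hM10Q _))
    · rw [← e00]; exact dvd_add hM00 (dvd_mul_of_dvd_right hM10Q _)
  have hM'11 : (Q : ℤ) ∣ M' 1 1 := by
    rcases i with _ | i <;> rcases k with _ | k <;> simp [hRep] at e11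
    · exact e11 ▸ hM11
    · exact hcan _ ((dvd_add_right (dvd_mul_of_dvd_left (hQN.trans hM'10) (k.val : ℤ))).1
        (by rw [mul_comm (ℓ : ℤ), ← e11]; exact hM11))
    · exact e11 ▸ dvd_mul_of_dvd_right hM11 _
    · exact hcan _ ((dvd_add_right (dvd_mul_of_dvd_left (hQN.trans hM'10) (k.val : ℤ))).1
        (by rw [mul_comm (ℓ : ℤ), ← e11]; exact dvd_mul_of_dvd_right hM11 _))
  refine ⟨⟨hd.trans hMd, hM'10, hM'00, hM'11⟩, ?_⟩
  have hQ3' : (3 : ℤ) ∣ (Q : ℤ) := by exact_mod_cast hQ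
  have hM00' := hQ3'.trans hM00
  have hM11' := hQ3'.trans hM11
  have hM'00' := hQ3'.trans hM'00
  rcases i with _ | i <;> rcases k with _ | k <;> simp [hRep] at e01 <;>
    simp only [repWeight, mul_one, one_mul]
  · rw [← e01, chiC_mul]; ring
  · have : chiC (ℓ * M 0 1) = chiC (M' 0 1 * ℓ) := by
      rw [e01]
      refine chiC_congr ?_
      rw [add_sub_cancel_right]
      exact dvd_mul_of_dvd_left hM'00' _
    rw [chiC_mul, chiC_mul] at this
    rw [this]; ring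
  · rw [chiC_congr (a := M' 0 1) (b := M 0 1) (by
      rw [← e01, add_sub_cancel_left]; exact dvd_mul_of_dvd_right hM11' _)]
    linear_combination (-chiC (M 0 1)) * hℓℓ
  · have : chiC (M 0 1) = chiC (M' 0 1 * ℓ) := by
      refine chiC_congr ?_
      rw [show M 0 1 - M' 0 1 * ℓ = M' 0 0 * (k.val : ℤ) - (i.val : ℤ) * M 1 1 by
        linear_combination e01]
      exact dvd_sub (dvd_mul_of_dvd_left hM'00' _) (dvd_mul_of_dvd_right hM11' _)
    rw [chiC_mul] at this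
    linear_combination (-chiC ℓ) * this - chiC (M' 0 1) * hℓℓ

end Fermat.Agent.ResidualThree
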