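import Mathlib.Data.Complex.Basic
import Mathlib.Data.ZMod.Basic
import Mathlib.LinearAlgebra.Matrix.SpecialLinearGroup
import Fermat.Prelude.Def_ModularForm_EisensteinChiNegThree

/-!
# The character of conductor three on `ℤ/3`

`χ₋₃` as a function on `ZMod 3` and at integers, with its multiplicative rules. It is the
character of the weight-one forms attached to mod 3 representations.
-/

namespace Fermat.Agent.ResidualThree

open EisensteinWeightOne

/-- The character of conductor three, as a function on `ZMod 3`. -/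
def chiZ (x : ZMod 3) : ℤ := if x = 1 then 1 else if x = 2 then -1 else 0

theorem chiZ_mul (x y : ZMod 3) : chiZ (x * y) = chiZ x * chiZ y := by
  revert x y; decide

theorem chiZ_one : chiZ 1 = 1 := rfl

theorem chiZ_mul_self {x : ZMod 3} (h : x ≠ 0) : chiZ x * chiZ x = 1 := by
  revert x; decide

theorem chiNegThree_eq (n : ℕ) : chiNegThree n = chiZ (n : ZMod 3) := by
  have h : n % 3 < 3 := Nat.mod_lt _ (by norm_num)
  rw [← ZMod.natCast_mod n 3]
  unfold chiNegThree
  interval_cases n % 3 <;> rfl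

theorem chiNegThree_toNat (d : ℤ) : chiNegThree ((d % 3).toNat) = chiZ (d : ZMod 3) := by
  rw [chiNegThree_eq]
  congr 1
  rw [← Int.cast_natCast, Int.toNat_of_nonneg (Int.emod_nonneg d (by norm_num : (3 : ℤ) ≠ 0))]
  exact ZMod.intCast_mod d 3

/-- The character as a complex number at an integer. -/
noncomputable def chiC (d : ℤ) : ℂ := ((chiZ (d : ZMod 3) : ℤ) : ℂ)

theorem chiC_mul (a b : ℤ) : chiC (a * b) = chiC a * chiC b := by
  simp [chiC, chiZ_mul]

theorem chiC_one : chiC 1 = 1 := by simp [chiC, chiZ_one]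

theorem chiC_congr {a b : ℤ} (h : (3 : ℤ) ∣ a - b) : chiC a = chiC b := by
  rw [chiC, chiC, (ZMod.intCast_eq_intCast_iff_dvd_sub b a 3).2 (by exact_mod_cast h)]

theorem chiC_neg_one : chiC (-1) = -1 := by
  have : chiZ ((-1 : ℤ) : ZMod 3) = -1 := by decide
  rw [chiC, this]; simp

theorem chiC_mul_self {d : ℤ} (h : ¬ (3 : ℤ) ∣ d) : chiC d * chiC d = 1 := by
  rw [chiC, ← Int.cast_mul, chiZ_mul_self, Int.cast_one]
  rwa [Ne, ZMod.intCast_zmod_eq_zero_iff_dvd]

end Fermat.Agent.ResidualThree
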