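import Fermat.Agent.ResidualThree.Galois.Local
import Fermat.Agent.ResidualThree.WeightTwo.Chi
import Fermat.Agent.S29

/-!
# The eigenform has mod 3 representation `ρ̄` or `ρ̄ ⊗ χ₋₃`

If the residual system of an eigenform agrees with the traces of the curve at the primes
`ℓ ≡ 1 (mod 3)`, it agrees everywhere with them or with their twist by `χ₋₃`
(`congruent_or_twist`), as `ρ̄` is absolutely irreducible on the kernel of its determinant.
-/

noncomputable section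

open CongruenceSubgroup ModularFormClass WeierstrassCurve

namespace Fermat.Agent.ResidualThree

local notation "Qbar" => AlgebraicClosure ℚ
local notation "GQ" => AlgebraicClosure ℚ ≃ₐ[ℚ] AlgebraicClosure ℚ
local notation "G48" => GL (Fin 2) (ZMod 3)
local notation "M2" => Matrix (Fin 2) (Fin 2) (ZMod 3)

variable {W : WeierstrassCurve ℤ} (hΔ : W.Δ ≠ 0) {k : Type} [Field k] (ι : ZMod 3 →+* k)

/-- The representation over a field of characteristic `3`. -/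
def tauLin : GQ →* Module.End k (Fin 2 → k) :=
  ((Matrix.toLinAlgEquiv' : Matrix (Fin 2) (Fin 2) k ≃ₐ[k] _).toMonoidHom.comp
    (ι.mapMatrix : M2 →+* Matrix (Fin 2) (Fin 2) k).toMonoidHom).comp
      ((Units.coeHom M2).comp (rho hΔ))

theorem tauLin_apply (σ : GQ) :
    tauLin hΔ ι σ = Matrix.toLin' (((rho hΔ σ : G48) : M2).map ι) := rfl

theorem trace_tauLin (σ : GQ) :
    LinearMap.trace k _ (tauLin hΔ ι σ) = ι ((rho hΔ σ : G48) : M2).trace := by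
  rw [tauLin_apply, Matrix.trace_toLin'_eq]
  simp [Matrix.trace_fin_two]

theorem det_tauLin (σ : GQ) :
    LinearMap.det (tauLin hΔ ι σ) = ι ((rho hΔ σ : G48) : M2).det := by
  rw [tauLin_apply, LinearMap.det_toLin', RingHom.map_det]
  rfl

/-- The kernel of the determinant of `ρ`. -/
def rhoDetKer : Subgroup GQ := slThree.comap (rho hΔ)

theorem mem_rhoDetKer {σ : GQ} : σ ∈ rhoDetKer hΔ ↔ ((rho hΔ σ : G48) : M2).det = 1 := Iff.rfl

/-- Every matrix of determinant one is an image of the kernel of the determinant. -/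
theorem exists_rho_eq (hsurj : Function.Surjective (rho hΔ)) (m : M2) (hm : m.det = 1) :
    ∃ σ : rhoDetKer hΔ, ((rho hΔ σ.1 : G48) : M2) = m := by
  obtain ⟨σ, hσ⟩ := hsurj
    (Matrix.GeneralLinearGroup.mkOfDetNeZero m (by rw [hm]; exact one_ne_zero))
  have hσ' : ((rho hΔ σ : G48) : M2) = m := by rw [hσ]; rfl
  exact ⟨⟨σ, (mem_rhoDetKer hΔ).2 (by rw [hσ', hm])⟩, hσ'⟩

/-- `ρ` is absolutely irreducible on the kernel of its determinant. -/
theorem hasTraceBasis_rhoDetKer (hsurj : Function.Surjective (rho hΔ)) :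
    Gal.HasTraceBasis ((tauLin hΔ ι).comp (rhoDetKer hΔ).subtype) := by
  choose g hg using fun i : Fin 4 => exists_rho_eq hΔ hsurj
    ((![1, !![1, 1; 0, 1], !![1, 0; 1, 1], !![2, 1; 1, 1]] : Fin 4 → M2) i)
    (by revert i; decide)
  refine ⟨g, ?_⟩
  have key : (Matrix.of fun i j => LinearMap.trace k (Fin 2 → k)
      (((tauLin hΔ ι).comp (rhoDetKer hΔ).subtype) (g i) *
        ((tauLin hΔ ι).comp (rhoDetKer hΔ).subtype) (g j))) =
      (Matrix.of fun i j : Fin 4 =>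
        ((![1, !![1, 1; 0, 1], !![1, 0; 1, 1], !![2, 1; 1, 1]] : Fin 4 → M2) i *
          (![1, !![1, 1; 0, 1], !![1, 0; 1, 1], !![2, 1; 1, 1]] : Fin 4 → M2) j).trace).map ι := by
    refine Matrix.ext fun i j => ?_
    rw [Matrix.of_apply, Matrix.map_apply, Matrix.of_apply, ← map_mul, MonoidHom.comp_apply,
      trace_tauLin, map_mul, map_mul, Units.val_mul, ← hg i, ← hg j]
    rfl
  rw [key, ← RingHom.mapMatrix_apply, ← RingHom.map_det]
  refine (IsUnit.mk0 _ ?_).map ι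
  decide

/-- A matrix commuting with two opposite transvections is scalar. -/
theorem eq_scalar_of_commute (m : Matrix (Fin 2) (Fin 2) k)
    (hu : m * (!![1, 1; 0, 1] : M2).map ι = (!![1, 1; 0, 1] : M2).map ι * m)
    (hl : m * (!![1, 0; 1, 1] : M2).map ι = (!![1, 0; 1, 1] : M2).map ι * m) :
    m = m 0 0 • 1 := by
  have h00 := congrFun (congrFun hu 0) 0
  have h01 := congrFun (congrFun hu 0) 1
  have k00 := congrFun (congrFun hl 0) 0
  simp [Matrix.mul_apply, Fin.sum_univ_two] at h00 h01 k00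
  ext i j
  fin_cases i <;> fin_cases j <;> simp
  · linear_combination k00
  · linear_combination h00
  · linear_combination -h01

/-- Traces and determinants of the two representations at a Frobenius. -/
theorem frobenius_trace_det [CharP k 3] {φ : integralClosure ℤ ℂ →+* k} {N : ℕ}
    {g : CuspForm (Gamma0 N) 2} {ρh : ResidualGaloisRep k} (hatt : ρh.IsAttachedTo g φ)
    {a : ℕ → integralClosure ℤ ℂ}
    (ha : ∀ ℓ : ℕ, ℓ.Prime → ¬ ℓ ∣ N → (a ℓ : ℂ) = qCoeff ⇑g ℓ) {ℓ : ℕ} (hℓ : ℓ.Prime)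
    (hℓN : ¬ ℓ ∣ N) (hℓ3 : ℓ ≠ 3) (hgood : W.IsGoodPrimeFor ℓ) {A : ValuationSubring Qbar}
    (hA : A.LiesOverPrime ℓ) {σ : GQ} (hσ : A.IsFrobeniusAt σ ℓ) :
    LinearMap.trace _ _ (ρh.ρ σ) = φ (a ℓ) ∧
      LinearMap.det (ρh.ρ σ) = LinearMap.det (tauLin hΔ ι σ) ∧
      ((rho hΔ σ : G48) : M2).det = (ℓ : ZMod 3) ∧
      LinearMap.trace _ _ (tauLin hΔ ι σ) = (W.apOfModel ℓ : k) := by
  have hk : (ℓ : k) ≠ 0 := by
    rw [Ne, CharP.cast_eq_zero_iff _ 3]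
    exact fun h => hℓ3 ((Nat.prime_dvd_prime_iff_eq Nat.prime_three hℓ).1 h).symm
  obtain ⟨a', ha', hcp⟩ := hatt ℓ hℓ hℓN hk A hA σ hσ
  obtain rfl : a' = a ℓ := Subtype.ext (ha'.trans (ha ℓ hℓ hℓN).symm)
  rw [Gal.charpoly_fin_two' ρh.finrank_eq] at hcp
  have h1 := congrArg (fun q : Polynomial _ => q.coeff 1) hcp
  have h0 := congrArg (fun q : Polynomial _ => q.coeff 0) hcp
  simp [Polynomial.coeff_X_pow, Polynomial.coeff_C] at h1 h0
  refine ⟨h1, ?_, det_rho_frobenius hΔ hℓ hℓ3 hA hσ, ?_⟩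
  · rw [h0, det_tauLin, det_rho_frobenius hΔ hℓ hℓ3 hA hσ, map_natCast]
  · rw [trace_tauLin, trace_rho_frobenius hΔ hℓ hℓ3 hgood hA hσ, map_intCast]

include hΔ in
/-- Outside the exceptional primes a prime is good and prime to `3 N`. -/
theorem good_of_notMem {N : ℕ} (hN : N ≠ 0) {S : Finset ℕ} {ℓ : ℕ} (hℓ : ℓ.Prime)
    (h : ℓ ∉ S ∪ N.primeFactors ∪ W.Δ.natAbs.primeFactors ∪ {3}) :
    ℓ ∉ S ∧ ¬ ℓ ∣ N ∧ ℓ ≠ 3 ∧ W.IsGoodPrimeFor ℓ := by
  simp only [Finset.mem_union, Finset.mem_singleton, not_or] at h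
  exact ⟨h.1.1.1, fun hd => h.1.1.2 (Nat.mem_primeFactors.2 ⟨hℓ, hd, hN⟩), h.2,
    fun hd => h.1.2 (Nat.mem_primeFactors.2 ⟨hℓ, Int.natCast_dvd.1 hd,
      Int.natAbs_ne_zero.2 hΔ⟩)⟩

/-- A representation with the traces of `ρ̄` on a subgroup where `ρ̄` is absolutely irreducible
has a conjugate which equals `ρ̄` there. -/
theorem exists_conj_eqOn (ρh : ResidualGaloisRep k) (H : Subgroup GQ)
    (hbasis : Gal.HasTraceBasis ((tauLin hΔ ι).comp H.subtype))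
    (htr : ∀ σ : H, LinearMap.trace _ _ (tauLin hΔ ι σ.1) = LinearMap.trace _ _ (ρh.ρ σ.1)) :
    ∃ σe : GQ →* Module.End k (Fin 2 → k),
      (∀ x, LinearMap.trace _ _ (σe x) = LinearMap.trace _ _ (ρh.ρ x)) ∧
      (∀ x, LinearMap.det (σe x) = LinearMap.det (ρh.ρ x)) ∧
      ∀ σ ∈ H, σe σ = tauLin hΔ ι σ := by
  obtain ⟨e, he⟩ := Gal.exists_conj_of_trace_eq (Module.finrank_fin_fun k) ρh.finrank_eq
    ((tauLin hΔ ι).comp H.subtype) (ρh.ρ.comp H.subtype) hbasis htr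
  let σe : GQ →* Module.End k (Fin 2 → k) :=
    { toFun := fun x => e.symm.conj (ρh.ρ x)
      map_one' := LinearMap.ext fun v => by simp [LinearEquiv.conj_apply]
      map_mul' := fun x y => LinearMap.ext fun v => by simp [LinearEquiv.conj_apply] }
  refine ⟨σe, fun x => LinearMap.trace_conj' _ _, fun x =>
    (congrArg LinearMap.det (LinearEquiv.conj_apply e.symm (ρh.ρ x))).trans
      ((congrArg LinearMap.det (LinearMap.comp_assoc _ _ _)).trans (LinearMap.det_conj _ _)),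
    fun σ hσ => LinearMap.ext fun v => ?_⟩
  simp only [σe, MonoidHom.coe_mk, OneHom.coe_mk, LinearEquiv.conj_apply, LinearMap.comp_apply,
    LinearEquiv.coe_coe, LinearEquiv.symm_symm]
  rw [LinearEquiv.symm_apply_eq]
  exact (he ⟨σ, hσ⟩ v).symm

/-- An endomorphism commuting with two elements of unipotent image is scalar. -/
theorem exists_eq_smul_one (X : Module.End k (Fin 2 → k)) {u l : GQ}
    (hu : ((rho hΔ u : G48) : M2) = !![1, 1; 0, 1])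
    (hl : ((rho hΔ l : G48) : M2) = !![1, 0; 1, 1])
    (hXu : X * tauLin hΔ ι u = tauLin hΔ ι u * X) (hXl : X * tauLin hΔ ι l = tauLin hΔ ι l * X) :
    ∃ s : k, X = s • 1 := by
  have hu' := congrArg LinearMap.toMatrix' hXu
  have hl' := congrArg LinearMap.toMatrix' hXl
  rw [tauLin_apply, LinearMap.toMatrix'_mul, LinearMap.toMatrix'_mul, LinearMap.toMatrix'_toLin',
    hu] at hu'
  rw [tauLin_apply, LinearMap.toMatrix'_mul, LinearMap.toMatrix'_mul, LinearMap.toMatrix'_toLin',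
    hl] at hl'
  refine ⟨LinearMap.toMatrix' X 0 0, LinearMap.toMatrix'.injective ?_⟩
  rw [map_smul, LinearMap.toMatrix'_one]
  exact eq_scalar_of_commute ι _ hu' hl'

/-- **The comparison** over a field of characteristic three: an eigenform congruent to the traces
of the curve at the primes `ℓ ≡ 1 (mod 3)` is congruent to them, or to their twist by `χ₋₃`, at all
good primes. -/
theorem congruent_or_twist_field [CharP k 3] (φ : integralClosure ℤ ℂ →+* k)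
    (hsurj : Function.Surjective (rho hΔ)) {N : ℕ}
    {g : CuspForm (Gamma0 N) 2} (hg : g.IsNormalizedEigenform)
    (a : ℕ → integralClosure ℤ ℂ)
    (ha : ∀ ℓ : ℕ, ℓ.Prime → ¬ ℓ ∣ N → (a ℓ : ℂ) = qCoeff ⇑g ℓ) (S : Finset ℕ)
    (hsplit : ∀ ℓ : ℕ, ℓ.Prime → ¬ ℓ ∣ N → ℓ ∉ S → ℓ % 3 = 1 →
      φ (a ℓ) = (W.apOfModel ℓ : k)) :
    (∀ ℓ : ℕ, ℓ.Prime → ¬ ℓ ∣ N → ℓ ≠ 3 → W.IsGoodPrimeFor ℓ →
        φ (a ℓ) = (W.apOfModel ℓ : k)) ∨
      ∀ ℓ : ℕ, ℓ.Prime → ¬ ℓ ∣ N → ℓ ≠ 3 → W.IsGoodPrimeFor ℓ →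
        φ (a ℓ) = ((chiZ (ℓ : ZMod 3) * W.apOfModel ℓ : ℤ) : k) := by
  classical
  rcases eq_or_ne N 0 with rfl | hN0
  · exact Or.inl fun ℓ _ hℓ => absurd (dvd_zero ℓ) hℓ
  let ι : ZMod 3 →+* k := ZMod.castHom dvd_rfl k
  have hfk : Module.finrank k (Fin 2 → k) = 2 := Module.finrank_fin_fun k
  obtain ⟨ρh, hatt, -⟩ := S29.result hg Nat.prime_three φ
  -- the joint representation
  obtain ⟨L₁, hL₁, h₁⟩ := rho_factors hΔ
  obtain ⟨L₂, hL₂, h₂⟩ := ρh.factorsThroughFiniteLevel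
  let J : GQ →* G48 × Module.End (k) ρh.V := (rho hΔ).prod ρh.ρ
  have hJ : GaloisFactorsThroughFiniteLevel J :=
    ⟨L₁ ⊔ L₂, inferInstance, fun σ hσ => Prod.ext
      (h₁ σ fun x hx => hσ x (le_sup_left (a := L₁) (b := L₂) hx))
      (h₂ σ fun x hx => hσ x (le_sup_right (a := L₁) (b := L₂) hx))⟩
  let T : Finset ℕ := S ∪ N.primeFactors ∪ W.Δ.natAbs.primeFactors ∪ {3}
  -- at a Frobenius
  have hFrob : ∀ ℓ : ℕ, ℓ.Prime → ¬ ℓ ∣ N → ℓ ≠ 3 → W.IsGoodPrimeFor ℓ →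
      ∀ A : ValuationSubring Qbar, A.LiesOverPrime ℓ → ∀ σ : GQ, A.IsFrobeniusAt σ ℓ →
        LinearMap.trace _ _ (ρh.ρ σ) = φ (a ℓ) ∧
        LinearMap.det (ρh.ρ σ) = LinearMap.det (tauLin hΔ ι σ) ∧
        ((rho hΔ σ : G48) : M2).det = (ℓ : ZMod 3) ∧
        LinearMap.trace _ _ (tauLin hΔ ι σ) = (W.apOfModel ℓ : k) :=
    fun ℓ hℓ hℓN hℓ3 hgood A hA σ hσ =>
      frobenius_trace_det hΔ ι hatt ha hℓ hℓN hℓ3 hgood hA hσ
  -- equal determinants everywhere, equal traces on `rhoDetKer`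
  have hdet : ∀ σ, LinearMap.det (ρh.ρ σ) = LinearMap.det (tauLin hΔ ι σ) := by
    intro σ
    obtain ⟨ℓ, hℓ, hℓT, A, hA, s, hs, i, j, hi, -⟩ := Gal.exists_frobenius_map_generates J hJ σ T
    obtain ⟨-, hℓN, hℓ3, hgood⟩ := good_of_notMem hΔ hN0 hℓ hℓT
    obtain ⟨e1, e2⟩ := Prod.ext_iff.1 hi
    have e1' : rho hΔ σ = rho hΔ s ^ i := e1
    have e2' : ρh.ρ σ = ρh.ρ s ^ i := e2
    rw [e2', map_pow, (hFrob ℓ hℓ hℓN hℓ3 hgood A hA s hs).2.1, ← map_pow, ← map_pow,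
      tauLin_apply, tauLin_apply, map_pow, e1']
  have htrK : ∀ σ : rhoDetKer hΔ, LinearMap.trace _ _ (tauLin hΔ ι σ.1) =
      LinearMap.trace _ _ (ρh.ρ σ.1) := by
    rintro ⟨σ, hσ⟩
    obtain ⟨ℓ, hℓ, hℓT, A, hA, s, hs, i, j, hi, hj⟩ := Gal.exists_frobenius_map_generates J hJ σ T
    obtain ⟨hℓS, hℓN, hℓ3, hgood⟩ := good_of_notMem hΔ hN0 hℓ hℓT
    obtain ⟨t1, t2, t3, t4⟩ := hFrob ℓ hℓ hℓN hℓ3 hgood A hA s hs
    have e1 : rho hΔ σ = rho hΔ s ^ i := (Prod.ext_iff.1 hi).1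
    have e2 : ρh.ρ σ = ρh.ρ s ^ i := (Prod.ext_iff.1 hi).2
    have e3 : rho hΔ s = rho hΔ σ ^ j := (Prod.ext_iff.1 hj).1
    have hmod : ℓ % 3 = 1 := by
      have : (ℓ : ZMod 3) = 1 := by
        rw [← t3, e3, Units.val_pow_eq_pow_val, Matrix.det_pow, (mem_rhoDetKer hΔ).1 hσ, one_pow]
      rw [← Nat.cast_one, ZMod.natCast_eq_natCast_iff'] at this
      exact this
    have hs2 : LinearMap.charpoly (tauLin hΔ ι s) = LinearMap.charpoly (ρh.ρ s) := by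
      rw [Gal.charpoly_eq_iff hfk ρh.finrank_eq]
      refine ⟨?_, t2.symm⟩
      rw [t1, t4, hsplit ℓ hℓ hℓN hℓS hmod]
    have hp := ((Gal.charpoly_eq_iff hfk ρh.finrank_eq _ _).1
      (Gal.charpoly_pow_eq_aux hfk ρh.finrank_eq _ _ hs2 i)).1
    rw [← map_pow (tauLin hΔ ι), ← e2, tauLin_apply, map_pow, ← e1, ← tauLin_apply] at hp
    exact hp
  obtain ⟨σe, htrσ, hdσ, hK'⟩ :=
    exists_conj_eqOn hΔ ι ρh (rhoDetKer hΔ) (hasTraceBasis_rhoDetKer hΔ ι hsurj) htrK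
  have hK : ∀ σ : rhoDetKer hΔ, σe σ.1 = tauLin hΔ ι σ.1 := fun σ => hK' σ.1 σ.2
  -- an element of determinant `-1`
  obtain ⟨c, hc⟩ := hsurj
    (Matrix.GeneralLinearGroup.mkOfDetNeZero (!![1, 0; 0, -1] : M2) (by decide))
  have hcd : ((rho hΔ c : G48) : M2).det = -1 := by rw [hc]; decide
  set X := tauLin hΔ ι c⁻¹ * σe c with hX
  have hcomm : ∀ σ : rhoDetKer hΔ, X * tauLin hΔ ι σ.1 = tauLin hΔ ι σ.1 * X := by
    intro σ
    have hconj : c * σ.1 * c⁻¹ ∈ rhoDetKer hΔ := by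
      rw [mem_rhoDetKer, map_mul, map_mul, Units.val_mul, Units.val_mul, Matrix.det_mul,
        Matrix.det_mul, (mem_rhoDetKer hΔ).1 σ.2, mul_one, ← Matrix.det_mul, ← Units.val_mul,
        ← map_mul, mul_inv_cancel, map_one, Units.val_one, Matrix.det_one]
    have h1 := hK ⟨_, hconj⟩
    simp only [map_mul] at h1
    have h2 := congrArg (fun z => tauLin hΔ ι c⁻¹ * (z * σe c)) h1
    simp only [mul_assoc, ← map_mul σe c⁻¹ c, inv_mul_cancel, map_one, mul_one, hK σ] at h2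
    rw [hX, mul_assoc, h2, ← mul_assoc, ← map_mul, inv_mul_cancel, map_one, one_mul]
  clear_value X
  obtain ⟨s, hXs⟩ : ∃ s, X = s • (1 : Module.End _ _) := by
    obtain ⟨u, hu⟩ := exists_rho_eq hΔ hsurj !![1, 1; 0, 1] (by decide)
    obtain ⟨l, hl⟩ := exists_rho_eq hΔ hsurj !![1, 0; 1, 1] (by decide)
    exact exists_eq_smul_one hΔ ι X hu hl (hcomm u) (hcomm l)
  have hσc : σe c = s • tauLin hΔ ι c := by
    calc σe c = tauLin hΔ ι c * X := by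
          rw [hX, ← mul_assoc, ← map_mul, mul_inv_cancel, map_one, one_mul]
      _ = s • tauLin hΔ ι c := by rw [hXs, mul_smul_comm, mul_one]
  have hs2 : s ^ 2 = 1 := by
    have h := congrArg LinearMap.det hσc
    rw [hdσ, hdet, LinearMap.det_smul, Module.finrank_fin_fun] at h
    have hne : LinearMap.det (tauLin hΔ ι c) ≠ 0 := by
      rw [det_tauLin, hcd, map_neg, map_one]
      exact neg_ne_zero.2 one_ne_zero
    exact mul_right_cancel₀ hne (by rw [← h, one_mul])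
  have hout : ∀ x : GQ, ((rho hΔ x : G48) : M2).det = -1 →
      LinearMap.trace _ _ (ρh.ρ x) = s * LinearMap.trace _ _ (tauLin hΔ ι x) := by
    intro x hx
    have hy : c⁻¹ * x ∈ rhoDetKer hΔ := by
      rw [mem_rhoDetKer, map_mul, Units.val_mul, Matrix.det_mul, hx, ← hcd, ← Matrix.det_mul,
        ← Units.val_mul, ← map_mul, inv_mul_cancel, map_one, Units.val_one, Matrix.det_one]
    rw [← htrσ, show x = c * (c⁻¹ * x) by rw [mul_inv_cancel_left], map_mul, hσc,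
      hK ⟨_, hy⟩, smul_mul_assoc, ← map_mul, mul_inv_cancel_left, map_smul, smul_eq_mul]
  have hmod : ∀ ℓ : ℕ, ℓ.Prime → ¬ ℓ ∣ N → ℓ ≠ 3 → W.IsGoodPrimeFor ℓ →
      φ (a ℓ) = (if (ℓ : ZMod 3) = 1 then 1 else s) * (W.apOfModel ℓ : k) := by
    intro ℓ hℓ hℓN hℓ3 hgood
    obtain ⟨A, σ, hA, hσ⟩ := Gal.exists_liesOverPrime_isFrobeniusAt hℓ
    obtain ⟨t1, -, t3, t4⟩ := hFrob ℓ hℓ hℓN hℓ3 hgood A hA σ hσ
    rw [← t1, ← t4, ← t3]
    split_ifs with h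
    · rw [one_mul]
      exact (htrK ⟨σ, h⟩).symm
    · exact hout σ ((det_eq_one_or_neg_one (rho hΔ σ)).resolve_left h)
  rcases mul_self_eq_one_iff.1 (by rw [← pow_two, hs2] : s * s = 1) with rfl | rfl
  · left
    intro ℓ hℓ hℓN hℓ3 hgood
    rw [hmod ℓ hℓ hℓN hℓ3 hgood, ite_self, one_mul]
  · right
    intro ℓ hℓ hℓN hℓ3 hgood
    rw [hmod ℓ hℓ hℓN hℓ3 hgood, Int.cast_mul]
    congr 1
    have h0 : (ℓ : ZMod 3) ≠ 0 := by
      rw [Ne, ZMod.natCast_eq_zero_iff]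
      exact fun h => hℓ3 ((Nat.prime_dvd_prime_iff_eq Nat.prime_three hℓ).1 h).symm
    have h2 : (ℓ : ZMod 3) = 1 ∨ (ℓ : ZMod 3) = 2 := by
      revert h0
      generalize (ℓ : ZMod 3) = x
      revert x
      decide
    rcases h2 with h | h <;> rw [h]
    · simp [chiZ_one]
    · rw [if_neg (by decide), show chiZ (2 : ZMod 3) = -1 from rfl, Int.cast_neg, Int.cast_one]

/-- The comparison modulo a maximal ideal. -/
theorem congruent_or_twist (hsurj : Function.Surjective (rho hΔ)) {N : ℕ}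
    {g : CuspForm (Gamma0 N) 2} (hg : g.IsNormalizedEigenform) (M : Ideal (integralClosure ℤ ℂ))
    [M.IsMaximal] (h3M : (3 : integralClosure ℤ ℂ) ∈ M) (a : ℕ → integralClosure ℤ ℂ)
    (ha : ∀ ℓ : ℕ, ℓ.Prime → ¬ ℓ ∣ N → (a ℓ : ℂ) = qCoeff ⇑g ℓ) (S : Finset ℕ)
    (hsplit : ∀ ℓ : ℕ, ℓ.Prime → ¬ ℓ ∣ N → ℓ ∉ S → ℓ % 3 = 1 →
      a ℓ - (W.apOfModel ℓ : integralClosure ℤ ℂ) ∈ M) :
    (∀ ℓ : ℕ, ℓ.Prime → ¬ ℓ ∣ N → ℓ ≠ 3 → W.IsGoodPrimeFor ℓ →
        a ℓ - (W.apOfModel ℓ : integralClosure ℤ ℂ) ∈ M) ∨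
      ∀ ℓ : ℕ, ℓ.Prime → ¬ ℓ ∣ N → ℓ ≠ 3 → W.IsGoodPrimeFor ℓ →
        a ℓ - ((chiZ (ℓ : ZMod 3) * W.apOfModel ℓ : ℤ) : integralClosure ℤ ℂ) ∈ M := by
  let : Field (integralClosure ℤ ℂ ⧸ M) := Ideal.Quotient.field M
  have : CharP (integralClosure ℤ ℂ ⧸ M) 3 :=
    (CharP.charP_iff_prime_eq_zero Nat.prime_three).2 (by
      rw [← map_natCast (Ideal.Quotient.mk M)]
      exact Ideal.Quotient.eq_zero_iff_mem.2 h3M)
  have hiff : ∀ (x : integralClosure ℤ ℂ) (z : ℤ),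
      Ideal.Quotient.mk M x = (z : integralClosure ℤ ℂ ⧸ M) ↔
        x - (z : integralClosure ℤ ℂ) ∈ M := fun x z => by
    rw [← map_intCast (Ideal.Quotient.mk M), Ideal.Quotient.eq]
  simp only [← hiff] at hsplit ⊢
  exact congruent_or_twist_field hΔ (Ideal.Quotient.mk M) hsurj hg a ha S hsplit

end Fermat.Agent.ResidualThree
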