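import Mathlib.Algebra.MvPolynomial.Eval
import Mathlib.Data.Nat.Prime.Basic
import Mathlib.RingTheory.MvPolynomial.Basic
import Mathlib.RingTheory.PowerSeries.Inverse
import Mathlib.Tactic.LinearCombination
import Fermat.Agent.ResidualThree.WeightTwo.Chi

/-!
# Formal weight-one Hecke operators on coefficient sequences

The operators `b ↦ (n ↦ b(ℓ n) + χ(ℓ) b(n/ℓ))` commute, preserve sequences of integers and
commute with linear maps of the coefficients. They transport Hecke operators from weight one to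
weight two modulo `3`.
-/

noncomputable section

namespace Fermat.Agent.ResidualThree

/-- `b ↦ (n ↦ b(ℓn) + χ(ℓ) b(n/ℓ))`. -/
def seqHecke (ℓ : ℕ) : Module.End ℂ (ℕ → ℂ) where
  toFun b n := b (ℓ * n) + chiC ℓ * (if ℓ ∣ n then b (n / ℓ) else 0)
  map_add' b c := by
    funext n
    simp only [Pi.add_apply]
    split_ifs <;> ring
  map_smul' a b := by
    funext n
    simp only [Pi.smul_apply, smul_eq_mul, RingHom.id_apply]
    split_ifs <;> ring

theorem seqHecke_apply (ℓ : ℕ) (b : ℕ → ℂ) (n : ℕ) :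
    seqHecke ℓ b n = b (ℓ * n) + chiC ℓ * (if ℓ ∣ n then b (n / ℓ) else 0) := rfl

/-- The formal operators commute. -/
theorem seqHecke_comm {ℓ m : ℕ} (hℓ : ℓ.Prime) (hm : m.Prime) :
    seqHecke ℓ * seqHecke m = seqHecke m * seqHecke ℓ := by
  rcases eq_or_ne ℓ m with rfl | hne
  · rfl
  refine LinearMap.ext fun b => funext fun n => ?_
  simp only [Module.End.mul_apply, seqHecke_apply]
  have hco : Nat.Coprime ℓ m := (Nat.coprime_primes hℓ hm).2 hne
  by_cases h1 : ℓ ∣ n <;> by_cases h2 : m ∣ n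
  · obtain ⟨k, rfl⟩ := hco.mul_dvd_of_dvd_of_dvd h1 h2
    have e1 : ℓ * m * k / ℓ = m * k := by rw [mul_assoc, Nat.mul_div_cancel_left _ hℓ.pos]
    have e2 : ℓ * m * k / m = ℓ * k := by
      rw [mul_comm ℓ m, mul_assoc, Nat.mul_div_cancel_left _ hm.pos]
    have e3 : ℓ * (ℓ * m * k) / m = ℓ * (ℓ * k) := by
      rw [show ℓ * (ℓ * m * k) = m * (ℓ * (ℓ * k)) by ring, Nat.mul_div_cancel_left _ hm.pos]
    have e4 : m * (ℓ * m * k) / ℓ = m * (m * k) := by
      rw [show m * (ℓ * m * k) = ℓ * (m * (m * k)) by ring, Nat.mul_div_cancel_left _ hℓ.pos]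
    rw [if_pos (dvd_mul_of_dvd_right h2 ℓ), if_pos h1, if_pos h2,
      if_pos (dvd_mul_of_dvd_right h1 m), e1, e2, e3, e4,
      if_pos (dvd_mul_right m k), if_pos (dvd_mul_right ℓ k), Nat.mul_div_cancel_left _ hm.pos,
      Nat.mul_div_cancel_left _ hℓ.pos, show m * (ℓ * (ℓ * m * k)) = ℓ * (m * (ℓ * m * k)) by ring]
    ring_nf
  · have h3 : ¬ m ∣ ℓ * n := fun h => h2 ((hco.symm).dvd_of_dvd_mul_left h)
    obtain ⟨k, rfl⟩ := h1
    have h4 : ¬ m ∣ k := fun h => h2 (dvd_mul_of_dvd_right h ℓ)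
    rw [if_neg h3, if_neg h2, if_pos (dvd_mul_right ℓ k), Nat.mul_div_cancel_left _ hℓ.pos,
      if_neg h4, if_pos (dvd_mul_of_dvd_right (dvd_mul_right ℓ k) m),
      show m * (ℓ * k) / ℓ = m * k by
        rw [show m * (ℓ * k) = ℓ * (m * k) by ring, Nat.mul_div_cancel_left _ hℓ.pos]]
    ring_nf
  · have h3 : ¬ ℓ ∣ m * n := fun h => h1 (hco.dvd_of_dvd_mul_left h)
    obtain ⟨k, rfl⟩ := h2
    have h4 : ¬ ℓ ∣ k := fun h => h1 (dvd_mul_of_dvd_right h m)
    rw [if_neg h3, if_neg h1, if_pos (dvd_mul_right m k), Nat.mul_div_cancel_left _ hm.pos,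
      if_neg h4, if_pos (dvd_mul_of_dvd_right (dvd_mul_right m k) ℓ),
      show ℓ * (m * k) / m = ℓ * k by
        rw [show ℓ * (m * k) = m * (ℓ * k) by ring, Nat.mul_div_cancel_left _ hm.pos]]
    ring_nf
  · have h3 : ¬ m ∣ ℓ * n := fun h => h2 ((hco.symm).dvd_of_dvd_mul_left h)
    have h4 : ¬ ℓ ∣ m * n := fun h => h1 (hco.dvd_of_dvd_mul_left h)
    rw [if_neg h3, if_neg h1, if_neg h2, if_neg h4]
    ring_nf

/-- The primes prime to the level. -/
abbrev GoodPrime (N : ℕ) : Type := {ℓ : ℕ // ℓ.Prime ∧ ¬ ℓ ∣ N}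

/-- The abstract Hecke ring prime to the level. -/
abbrev GoodHecke (N : ℕ) : Type := MvPolynomial (GoodPrime N) ℤ

/-- The algebra generated by the formal operators. -/
def seqAlg (N : ℕ) : Subalgebra ℤ (Module.End ℂ (ℕ → ℂ)) :=
  Algebra.adjoin ℤ (Set.range fun ℓ : GoodPrime N => seqHecke ℓ.1)

instance seqAlg_isMulCommutative (N : ℕ) : IsMulCommutative (seqAlg N) :=
  Algebra.isMulCommutative_adjoin ℤ (by
    rintro _ ⟨a, rfl⟩ _ ⟨b, rfl⟩
    exact seqHecke_comm a.2.1 b.2.1)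

open scoped IsMulCommutative in
/-- The action of the abstract ring on sequences. -/
def seqAct (N : ℕ) : GoodHecke N →ₐ[ℤ] Module.End ℂ (ℕ → ℂ) :=
  (seqAlg N).val.comp
    (MvPolynomial.aeval fun ℓ : GoodPrime N =>
      (⟨seqHecke ℓ.1, Algebra.subset_adjoin ⟨ℓ, rfl⟩⟩ : seqAlg N))

@[simp] theorem seqAct_X (N : ℕ) (ℓ : GoodPrime N) :
    seqAct N (MvPolynomial.X ℓ) = seqHecke ℓ.1 := by
  simp [seqAct]

theorem seqAct_C_apply (N : ℕ) (z : ℤ) (b : ℕ → ℂ) :
    seqAct N (MvPolynomial.C z) b = (z : ℂ) • b := by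
  rw [← MvPolynomial.algebraMap_eq, AlgHom.commutes, Algebra.algebraMap_eq_smul_one,
    LinearMap.smul_apply, Module.End.one_apply, Int.cast_smul_eq_zsmul]

/-- A sequence of integers. -/
def IsIntSeq (b : ℕ → ℂ) : Prop := ∀ n, ∃ z : ℤ, b n = (z : ℂ)

theorem IsIntSeq.seqHecke {b : ℕ → ℂ} (hb : IsIntSeq b) (ℓ : ℕ) :
    IsIntSeq (ResidualThree.seqHecke ℓ b) := by
  intro n
  obtain ⟨x, hx⟩ := hb (ℓ * n)
  obtain ⟨y, hy⟩ := hb (n / ℓ)
  rw [seqHecke_apply]
  split_ifs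
  · exact ⟨x + chiZ ((ℓ : ℤ) : ZMod 3) * y, by rw [hx, hy, chiC]; push_cast; rfl⟩
  · exact ⟨x, by rw [hx, mul_zero, add_zero]⟩

/-- The formal operators preserve integral sequences. -/
theorem IsIntSeq.seqAct {N : ℕ} (P : GoodHecke N) :
    ∀ {b : ℕ → ℂ}, IsIntSeq b → IsIntSeq (ResidualThree.seqAct N P b) := by
  induction P using MvPolynomial.induction_on with
  | C z =>
    intro b hb n
    obtain ⟨x, hx⟩ := hb n
    exact ⟨z * x, by rw [seqAct_C_apply, Pi.smul_apply, smul_eq_mul, hx]; push_cast; rfl⟩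
  | add p q hp hq =>
    intro b hb n
    obtain ⟨x, hx⟩ := hp hb n
    obtain ⟨y, hy⟩ := hq hb n
    exact ⟨x + y, by rw [map_add, LinearMap.add_apply, Pi.add_apply, hx, hy]; push_cast; rfl⟩
  | mul_X p ℓ hp =>
    intro b hb
    rw [map_mul, seqAct_X, Module.End.mul_apply]
    exact hp (hb.seqHecke ℓ.1)

/-- Formal operators commute with any `ℚ`-linear map applied coefficientwise. -/
theorem seqAct_comp {N : ℕ} (φ : ℂ →ₗ[ℚ] ℂ) (P : GoodHecke N) :
    ∀ b : ℕ → ℂ, seqAct N P (φ ∘ b) = φ ∘ seqAct N P b := by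
  induction P using MvPolynomial.induction_on with
  | C z =>
    intro b
    funext n
    simp only [seqAct_C_apply, Pi.smul_apply, Function.comp_apply, smul_eq_mul]
    rw [← zsmul_eq_mul, ← zsmul_eq_mul, map_zsmul]
  | add p q hp hq =>
    intro b
    funext n
    simp [map_add, hp b, hq b]
  | mul_X p ℓ hp =>
    intro b
    rw [map_mul, seqAct_X, Module.End.mul_apply, Module.End.mul_apply, ← hp]
    congr 1
    funext n
    simp only [seqHecke_apply, Function.comp_apply, map_add]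
    congr 1
    rw [show chiC ((ℓ.1 : ℕ) : ℤ) = ((chiZ ((((ℓ.1 : ℕ) : ℤ)) : ZMod 3) : ℤ) : ℂ) from rfl,
      ← zsmul_eq_mul, ← zsmul_eq_mul, map_zsmul]
    congr 1
    split_ifs <;> simp

/-- An eigenvector of the generators is one of the whole ring. -/
theorem seqAct_eigen {N : ℕ} {c : ℕ → ℂ} {lam : GoodPrime N → ℂ}
    (h : ∀ ℓ : GoodPrime N, seqHecke ℓ.1 c = lam ℓ • c) (P : GoodHecke N) :
    seqAct N P c = (MvPolynomial.aeval lam P) • c := by
  induction P using MvPolynomial.induction_on with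
  | C z => rw [seqAct_C_apply, MvPolynomial.aeval_C]; rfl
  | add p q hp hq => rw [map_add, LinearMap.add_apply, hp, hq, map_add, add_smul]
  | mul_X p ℓ hp =>
    rw [map_mul, seqAct_X, Module.End.mul_apply, h, map_smul, hp, map_mul, MvPolynomial.aeval_X,
      smul_smul, mul_comm]

end Fermat.Agent.ResidualThree
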