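import Mathlib.Analysis.SpecialFunctions.Pow.Complex
import Mathlib.GroupTheory.Perm.Cycle.Type
import Mathlib.NumberTheory.ModularForms.JacobiTheta.OneVariable
import Fermat.Agent.Eis.Theta

/-!
# The hexagonal theta series `∑ q^(m² + mn + n²)`: expansion and functional equation

The series is a combination of products of one-variable theta series; this gives its expansion,
with constant term `1` and the other coefficients divisible by `3`, and its transformation under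
`z ↦ -1/(3z)`.
-/

noncomputable section

open Complex
open UpperHalfPlane hiding I
open scoped Real

local notation "𝕢" => Function.Periodic.qParam

namespace Fermat.Agent.ResidualThree

/-- The hexagonal form. -/
def hexQ (v : ℤ × ℤ) : ℕ := (v.1 ^ 2 + v.1 * v.2 + v.2 ^ 2).toNat

theorem hexQ_cast (v : ℤ × ℤ) : ((hexQ v : ℕ) : ℤ) = v.1 ^ 2 + v.1 * v.2 + v.2 ^ 2 :=
  Int.toNat_of_nonneg (by nlinarith [sq_nonneg (2 * v.1 + v.2), sq_nonneg v.2])

theorem hexQ_cast_complex (v : ℤ × ℤ) :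
    ((hexQ v : ℕ) : ℂ) = (v.1 : ℂ) ^ 2 + (v.1 : ℂ) * v.2 + (v.2 : ℂ) ^ 2 := by
  have := congrArg (fun n : ℤ => (n : ℂ)) (hexQ_cast v)
  push_cast at this
  exact this

/-- Coefficients of the hexagonal theta series. -/
def hexCoeff (n : ℕ) : ℕ := Eis.cnt hexQ n

/-- The hexagonal theta series. -/
def hexTheta (z : ℍ) : ℂ := ∑' v : ℤ × ℤ, cexp (2 * π * I * z * (hexQ v : ℕ))

/-- One-variable terms. -/
def thetaTerm (x τ : ℂ) : ℂ := cexp (π * I * x ^ 2 * τ)

theorem hasSum_theta_zero {τ : ℂ} (hτ : 0 < τ.im) :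
    HasSum (fun n : ℤ => thetaTerm n τ) (jacobiTheta₂ 0 τ) := by
  have h := hasSum_jacobiTheta₂_term 0 hτ
  refine h.congr_fun fun n => ?_
  simp [thetaTerm, jacobiTheta₂_term]

theorem hasSum_theta_half {τ : ℂ} (hτ : 0 < τ.im) :
    HasSum (fun n : ℤ => thetaTerm (n + 1 / 2) τ)
      (cexp (π * I * τ / 4) * jacobiTheta₂ (τ / 2) τ) := by
  have h := (hasSum_jacobiTheta₂_term (τ / 2) hτ).mul_left (cexp (π * I * τ / 4))
  refine h.congr_fun fun n => ?_
  rw [thetaTerm, jacobiTheta₂_term, ← Complex.exp_add]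
  ring_nf

theorem hasSum_theta_sign {τ : ℂ} (hτ : 0 < τ.im) :
    HasSum (fun n : ℤ => (-1 : ℂ) ^ n * thetaTerm n τ) (jacobiTheta₂ (-1 / 2) τ) := by
  have h := hasSum_jacobiTheta₂_term (-1 / 2) hτ
  refine h.congr_fun fun n => ?_
  rw [thetaTerm, jacobiTheta₂_term, Complex.exp_add]
  congr 1
  rw [show 2 * (π : ℂ) * I * n * (-1 / 2) = (n : ℂ) * -(π * I) by ring, Complex.exp_int_mul,
    Complex.exp_neg, Complex.exp_pi_mul_I]
  norm_num

theorem hasSum_prod {f g : ℤ → ℂ} {a b : ℂ} (hf : HasSum f a) (hg : HasSum g b) :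
    HasSum (fun v : ℤ × ℤ => f v.1 * g v.2) (a * b) :=
  hf.mul hg (summable_mul_of_summable_norm (summable_norm_iff.2 hf.summable)
    (summable_norm_iff.2 hg.summable))

/-- Parity of the second coordinate. -/
def hexSplit : (ℤ × ℤ) ⊕ (ℤ × ℤ) ≃ ℤ × ℤ where
  toFun := Sum.elim (fun v => (v.1 - v.2, 2 * v.2)) (fun v => (v.1 - v.2, 2 * v.2 + 1))
  invFun v := if v.2 % 2 = 0 then Sum.inl (v.1 + v.2 / 2, v.2 / 2)
    else Sum.inr (v.1 + v.2 / 2, v.2 / 2)
  left_inv := by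
    rintro (⟨j, k⟩ | ⟨j, k⟩)
    · simp
    · have h1 : (2 * k + 1) / 2 = k := by omega
      have h2 : ¬ (2 * k + 1) % 2 = 0 := by omega
      simp [h1]
  right_inv := by
    rintro ⟨m, n⟩
    by_cases h : n % 2 = 0
    · simp [h]; omega
    · simp [h]; omega

theorem two_mul_im_pos (z : ℍ) {c : ℝ} (hc : 0 < c) : 0 < ((c : ℂ) * z).im := by
  rw [Complex.im_ofReal_mul]
  exact mul_pos hc z.im_pos

/-- The theta series as a combination of products of one-variable theta series. -/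
theorem hasSum_hexTheta_split (z : ℍ) :
    HasSum (fun v : ℤ × ℤ => cexp (2 * π * I * z * (hexQ v : ℕ)))
      (jacobiTheta₂ 0 (2 * z) * jacobiTheta₂ 0 (6 * z) +
        (cexp (π * I * (2 * z) / 4) * jacobiTheta₂ ((2 * z) / 2) (2 * z)) *
          (cexp (π * I * (6 * z) / 4) * jacobiTheta₂ ((6 * z) / 2) (6 * z))) := by
  have h2 : 0 < (2 * (z : ℂ)).im := by simpa using two_mul_im_pos z (c := 2) two_pos
  have h6 : 0 < (6 * (z : ℂ)).im := by simpa using two_mul_im_pos z (c := 6) (by norm_num)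
  rw [← hexSplit.hasSum_iff]
  refine HasSum.sum ((hasSum_prod (hasSum_theta_zero h2) (hasSum_theta_zero h6)).congr_fun ?_)
    ((hasSum_prod (hasSum_theta_half h2) (hasSum_theta_half h6)).congr_fun ?_) <;>
  · rintro ⟨j, k⟩
    simp only [Function.comp_apply, hexSplit, Equiv.coe_fn_mk, Sum.elim_inl, Sum.elim_inr,
      thetaTerm, ← Complex.exp_add, hexQ_cast_complex]
    push_cast
    ring_nf

theorem summable_hexTheta (z : ℍ) :
    Summable fun v : ℤ × ℤ => cexp (2 * π * I * z * (hexQ v : ℕ)) :=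
  (hasSum_hexTheta_split z).summable

theorem hexTheta_eq (z : ℍ) : hexTheta z =
    jacobiTheta₂ 0 (2 * z) * jacobiTheta₂ 0 (6 * z) +
      (cexp (π * I * (2 * z) / 4) * jacobiTheta₂ ((2 * z) / 2) (2 * z)) *
        (cexp (π * I * (6 * z) / 4) * jacobiTheta₂ ((6 * z) / 2) (6 * z)) :=
  (hasSum_hexTheta_split z).tsum_eq

theorem qParam_pow_eq (z : ℍ) (n : ℕ) : 𝕢 (1 : ℝ) z ^ n = cexp (2 * π * I * z * n) := by
  rw [Function.Periodic.qParam, ← Complex.exp_nat_mul]
  push_cast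
  ring_nf

theorem hexTheta_fiber (z : ℍ) :
    (∀ n, Finite {v : ℤ × ℤ // hexQ v = n}) ∧
      HasSum (fun n => (hexCoeff n : ℂ) * 𝕢 (1 : ℝ) z ^ n) (hexTheta z) := by
  have h := Eis.hasSum_fiber hexQ (q := 𝕢 (1 : ℝ) z) (Complex.exp_ne_zero _)
    (by
      refine summable_norm_iff.2 ((summable_hexTheta z).congr fun v => ?_)
      rw [qParam_pow_eq])
  simp only [qParam_pow_eq] at h ⊢
  exact h

theorem hexCoeff_zero : hexCoeff 0 = 1 := by
  rw [hexCoeff, Eis.cnt, Nat.card_eq_one_iff_unique]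
  refine ⟨⟨fun u v => Subtype.ext ?_⟩, ⟨⟨0, by simp [hexQ]⟩⟩⟩
  have key : ∀ w : {v : ℤ × ℤ // hexQ v = 0}, w.1 = 0 := fun w => by
    have h := hexQ_cast w.1
    rw [w.2, Nat.cast_zero] at h
    have h2 : w.1.2 = 0 := by nlinarith [sq_nonneg (2 * w.1.1 + w.1.2), sq_nonneg w.1.2]
    have h1 : w.1.1 = 0 := by rw [h2] at h; nlinarith
    exact Prod.ext h1 h2
  rw [key u, key v]

/-- The positive coefficients are divisible by three. -/
theorem three_dvd_hexCoeff {n : ℕ} (hn : n ≠ 0) : 3 ∣ hexCoeff n := by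
  classical
  have : Finite {v : ℤ × ℤ // hexQ v = n} :=
    (hexTheta_fiber ⟨Complex.I, by simp⟩).1 n
  have := Fintype.ofFinite {v : ℤ × ℤ // hexQ v = n}
  let f : Function.End {v : ℤ × ℤ // hexQ v = n} := fun v =>
    ⟨(v.1.2, -v.1.1 - v.1.2), by
      have h : (hexQ (v.1.2, -v.1.1 - v.1.2) : ℤ) = (hexQ v.1 : ℤ) := by
        rw [hexQ_cast, hexQ_cast]; ring
      exact (Int.natCast_inj.1 h).trans v.2⟩
  have hf : f ^ 3 ^ 1 = 1 := by
    funext v
    refine Subtype.ext ?_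
    show ((f ∘ f ∘ f) v).1 = v.1
    simp only [Function.comp_apply, f]
    ext <;> simp <;> ring
  have hfix : IsEmpty (f.fixedPoints) := ⟨fun ⟨v, hv⟩ => hn <| by
    have h1 := congrArg (fun w : {v : ℤ × ℤ // hexQ v = n} => w.1.1) hv
    have h2 := congrArg (fun w : {v : ℤ × ℤ // hexQ v = n} => w.1.2) hv
    simp only [f] at h1 h2
    rw [← v.2]
    have e1 : v.1.1 = 0 := by omega
    have e2 : v.1.2 = 0 := by omega
    rw [show v.1 = (0, 0) from Prod.ext e1 e2]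
    rfl⟩
  have h := Equiv.Perm.card_fixedPoints_modEq (p := 3) (n := 1) hf
  rw [Fintype.card_eq_zero (α := f.fixedPoints)] at h
  rw [hexCoeff, Eis.cnt, Nat.card_eq_fintype_card]
  exact Nat.modEq_zero_iff_dvd.1 h

theorem cpow_half_mul {a b : ℝ} (ha : 0 < a) (hb : 0 < b) {w : ℂ} (hw : w ≠ 0) :
    ((a : ℂ) * w) ^ (1 / 2 : ℂ) * ((b : ℂ) * w) ^ (1 / 2 : ℂ) = (Real.sqrt (a * b) : ℂ) * w := by
  rw [cpow_def_of_ne_zero (mul_ne_zero (Complex.ofReal_ne_zero.2 ha.ne') hw),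
    cpow_def_of_ne_zero (mul_ne_zero (Complex.ofReal_ne_zero.2 hb.ne') hw),
    Complex.log_ofReal_mul ha hw, Complex.log_ofReal_mul hb hw, ← Complex.exp_add]
  have : ((Real.log a : ℂ) + Complex.log w) * (1 / 2) + ((Real.log b : ℂ) + Complex.log w) * (1 / 2)
      = ((Real.log (a * b) / 2 : ℝ) : ℂ) + Complex.log w := by
    rw [Real.log_mul ha.ne' hb.ne']; push_cast; ring
  rw [this, Complex.exp_add, Complex.exp_log hw, ← Complex.ofReal_exp]
  congr 2
  rw [Real.sqrt_eq_rpow, Real.rpow_def_of_pos (mul_pos ha hb)]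
  ring_nf

theorem theta_zero_inv {τ : ℂ} (hτ : τ ≠ 0) :
    jacobiTheta₂ 0 (-1 / τ) = (-I * τ) ^ (1 / 2 : ℂ) * jacobiTheta₂ 0 τ := by
  have h0 : (-I * τ) ^ (1 / 2 : ℂ) ≠ 0 := by simp [hτ]
  conv_rhs => rw [jacobiTheta₂_functional_equation 0 τ]
  simp only [ne_eq, OfNat.ofNat_ne_zero, not_false_eq_true, zero_pow, mul_zero, zero_div,
    Complex.exp_zero, mul_one]
  field_simp

theorem theta_half_inv {τ : ℂ} (hτ : τ ≠ 0) :
    cexp (π * I * (-1 / τ) / 4) * jacobiTheta₂ (-1 / τ / 2) (-1 / τ) =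
      (-I * τ) ^ (1 / 2 : ℂ) * jacobiTheta₂ (-1 / 2) τ := by
  have h0 : (-I * τ) ^ (1 / 2 : ℂ) ≠ 0 := by simp [hτ]
  conv_rhs => rw [jacobiTheta₂_functional_equation (-1 / 2) τ]
  rw [show (-1 / 2 : ℂ) / τ = -1 / τ / 2 by ring,
    show -(π : ℂ) * I * (-1 / 2) ^ 2 / τ = π * I * (-1 / τ) / 4 by ring]
  field_simp

/-- The functional equation `θ(-1/(3z)) = -i√3 z θ(z)`. -/
theorem hexTheta_fricke (z w : ℍ) (hw : (w : ℂ) = -1 / (3 * z)) :
    hexTheta w = -I * (Real.sqrt 3 : ℂ) * z * hexTheta z := by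
  have hz : (z : ℂ) ≠ 0 := z.ne_zero
  set u : ℂ := 3 * z / 2 with hu
  set t : ℂ := z / 2 with ht
  have hu0 : u ≠ 0 := by rw [hu]; exact div_ne_zero (mul_ne_zero (by norm_num) hz) two_ne_zero
  have ht0 : t ≠ 0 := by rw [ht]; exact div_ne_zero hz two_ne_zero
  have e2 : 2 * (w : ℂ) = -1 / u := by rw [hw, hu]; field_simp
  have e6 : 6 * (w : ℂ) = -1 / t := by rw [hw, ht]; field_simp; ring
  rw [hexTheta_eq w, e2, e6, theta_zero_inv hu0, theta_zero_inv ht0, theta_half_inv hu0,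
    theta_half_inv ht0]
  have hs : (-I * u) ^ (1 / 2 : ℂ) * (-I * t) ^ (1 / 2 : ℂ) = (Real.sqrt 3 : ℂ) * (-I * z) / 2 := by
    have h := cpow_half_mul (a := 3) (b := 1) (by norm_num) one_pos
      (w := -I * z / 2) (div_ne_zero (mul_ne_zero (neg_ne_zero.2 I_ne_zero) hz) two_ne_zero)
    rw [hu, ht, show -I * (3 * (z : ℂ) / 2) = ((3 : ℝ) : ℂ) * (-I * z / 2) by push_cast; ring,
      show -I * ((z : ℂ) / 2) = ((1 : ℝ) : ℂ) * (-I * z / 2) by push_cast; ring, h, mul_one]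
    ring
  have hu' : 0 < u.im := by
    rw [hu, show 3 * (z : ℂ) / 2 = ((3 / 2 : ℝ) : ℂ) * z by push_cast; ring]
    exact two_mul_im_pos z (by norm_num)
  have ht' : 0 < t.im := by
    rw [ht, show (z : ℂ) / 2 = ((1 / 2 : ℝ) : ℂ) * z by push_cast; ring]
    exact two_mul_im_pos z (by norm_num)
  have hall := (hasSum_prod (hasSum_theta_zero hu') (hasSum_theta_zero ht')).add
    (hasSum_prod (hasSum_theta_sign hu') (hasSum_theta_sign ht'))
  have heven : HasSum (fun p : ℤ × ℤ => thetaTerm p.1 u * thetaTerm p.2 t +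
      (-1 : ℂ) ^ p.1 * thetaTerm p.1 u * ((-1 : ℂ) ^ p.2 * thetaTerm p.2 t)) (2 * hexTheta z) := by
    let g : ℤ × ℤ → ℤ × ℤ := fun v => (v.1, 2 * v.2 + v.1)
    have hg : Function.Injective g := fun a b e => by
      simp only [g, Prod.mk.injEq] at e
      exact Prod.ext e.1 (by omega)
    rw [← hg.hasSum_iff]
    · refine ((summable_hexTheta z).hasSum.mul_left 2).congr_fun fun v => ?_
      have hsign : (-1 : ℂ) ^ v.1 * (-1 : ℂ) ^ (2 * v.2 + v.1) = 1 := by
        rw [← zpow_add₀ (by norm_num)]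
        exact Even.neg_one_zpow ⟨v.2 + v.1, by ring⟩
      simp only [g, Function.comp_apply]
      rw [show ∀ a b c d : ℂ, a * b + c * a * (d * b) = (1 + c * d) * (a * b)
          from fun a b c d => by ring,
        hsign, thetaTerm, thetaTerm, ← Complex.exp_add, hexQ_cast_complex, one_add_one_eq_two]
      congr 2
      rw [hu, ht]
      push_cast
      ring
    · intro p hp
      have hodd : Odd (p.1 + p.2) := by
        rw [← Int.not_even_iff_odd]
        intro hev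
        obtain ⟨k, hk⟩ := hev
        exact hp ⟨(p.1, k - p.1), Prod.ext rfl (by simp only [g]; omega)⟩
      rw [show ∀ a b c d : ℂ, a * b + c * a * (d * b) = (1 + c * d) * (a * b)
          from fun a b c d => by ring,
        ← zpow_add₀ (by norm_num : (-1 : ℂ) ≠ 0), hodd.neg_one_zpow, add_neg_cancel, zero_mul]
  have key := hall.unique heven
  linear_combination ((-I * u) ^ (1 / 2 : ℂ) * (-I * t) ^ (1 / 2 : ℂ)) * key + 2 * hexTheta z * hs

end Fermat.Agent.ResidualThree
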