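import Fermat.Agent.Eis.Gamma0
import Fermat.Agent.ResidualThree.WeightTwo.Chi
import Fermat.Agent.ResidualThree.WeightTwo.Hexagonal

/-!
# The hexagonal theta series is a weight-one form on `Γ₀(3)` with character `χ₋₃`

The transformation law follows from the generators of `Γ₀(3)` and the functional equation, and
boundedness at all cusps with it. Multiplication by this form carries weight one to weight two.
-/

noncomputable section

open Complex CongruenceSubgroup ModularGroup
open UpperHalfPlane hiding I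
open scoped Real ModularForm MatrixGroups Manifold

namespace Fermat.Agent.ResidualThree

theorem goodFn_hexTheta : Eis.GoodFn 1 hexTheta :=
  Eis.goodFn_of_hasSum one_pos fun τ => (hexTheta_fiber τ).2

theorem hexTheta_vadd_one (z : ℍ) : hexTheta ((1 : ℝ) +ᵥ z) = hexTheta z := by
  unfold hexTheta
  refine tsum_congr fun v => ?_
  rw [UpperHalfPlane.coe_vadd, Complex.ofReal_one, mul_add, mul_one, add_mul, Complex.exp_add,
    show 2 * (π : ℂ) * I * (hexQ v : ℕ) = (hexQ v : ℕ) * (2 * π * I) by ring,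
    Complex.exp_nat_mul_two_pi_mul_I, one_mul]

theorem hexTheta_vadd_int (n : ℤ) (z : ℍ) : hexTheta ((n : ℝ) +ᵥ z) = hexTheta z := by
  induction n using Int.induction_on generalizing z with
  | zero => simp
  | succ i ih =>
    rw [Int.cast_add, Int.cast_one, add_vadd, ih, hexTheta_vadd_one]
  | pred i ih =>
    rw [← hexTheta_vadd_one ((((-(i : ℤ) - 1 : ℤ)) : ℝ) +ᵥ z), ← add_vadd]
    conv_rhs => rw [← ih z]
    congr 2
    push_cast
    ring

theorem hexTheta_slash_T : hexTheta ∣[(1 : ℤ)] T = hexTheta := by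
  funext z
  have h := Eis.slash_T_zpow_apply (k := (1 : ℤ)) hexTheta 1 z
  rw [zpow_one] at h
  rw [h, hexTheta_vadd_int]

theorem hexTheta_slash_neg_one : hexTheta ∣[(1 : ℤ)] (-1 : SL(2, ℤ)) = -hexTheta := by
  funext z
  rw [ModularForm.SL_slash_apply, SL_neg_smul, one_smul, ModularGroup.denom_apply]
  simp

/-- The lower unipotent generator of `Γ₀(3)`. -/
def lowerThree : SL(2, ℤ) := ⟨!![1, 0; 3, 1], by simp [Matrix.det_fin_two_of]⟩

/-- `z ↦ -1/(3z)`. -/
def frickeThree (z : ℍ) : ℍ :=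
  ⟨-1 / (3 * (z : ℂ)), by
    rw [neg_div, neg_im, one_div, Complex.inv_im, neg_div, neg_neg]
    refine div_pos ?_ (Complex.normSq_pos.2 (mul_ne_zero (by norm_num) z.ne_zero))
    simpa using z.im_pos⟩

theorem coe_frickeThree (z : ℍ) : (frickeThree z : ℂ) = -1 / (3 * (z : ℂ)) := rfl

/-- Invariance under the lower unipotent of `Γ₀(3)`, from the Fricke involution. -/
theorem hexTheta_slash_lower : hexTheta ∣[(1 : ℤ)] lowerThree = hexTheta := by
  funext z
  rw [ModularForm.SL_slash_apply, ModularGroup.denom_apply]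
  set w : ℍ := lowerThree • z with hwdef
  have hz : (z : ℂ) ≠ 0 := z.ne_zero
  have hwc : (w : ℂ) = (z : ℂ) / (3 * z + 1) := by
    rw [hwdef, UpperHalfPlane.coe_specialLinearGroup_apply]
    simp [lowerThree]
  have hd : (3 : ℂ) * z + 1 ≠ 0 := by
    intro h
    have := congrArg Complex.im h
    simp at this
    linarith [z.im_pos]
  have h1 : hexTheta (frickeThree w) = hexTheta (frickeThree z) := by
    rw [← hexTheta_vadd_int (-1) (frickeThree z)]
    congr 1
    refine UpperHalfPlane.ext ?_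
    rw [UpperHalfPlane.coe_vadd, coe_frickeThree, coe_frickeThree, hwc]
    push_cast
    field_simp
    ring
  rw [hexTheta_fricke w _ (coe_frickeThree w), hexTheta_fricke z _ (coe_frickeThree z)] at h1
  have hs : (Real.sqrt 3 : ℂ) ≠ 0 := Complex.ofReal_ne_zero.2 (by positivity)
  have h2 : (w : ℂ) * hexTheta w = (z : ℂ) * hexTheta z := by
    apply mul_left_cancel₀ (mul_ne_zero (neg_ne_zero.2 I_ne_zero) hs)
    linear_combination h1
  rw [hwc] at h2
  have h3 : hexTheta w = (3 * z + 1) * hexTheta z := by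
    apply mul_left_cancel₀ hz
    calc (z : ℂ) * hexTheta w = (3 * z + 1) * ((z : ℂ) / (3 * z + 1) * hexTheta w) :=
          by rw [← mul_assoc, mul_div_cancel₀ _ hd]
      _ = (z : ℂ) * ((3 * z + 1) * hexTheta z) := by rw [h2]; ring
  rw [h3]
  simp [lowerThree]
  field_simp

/-- Elements on which the hexagonal theta series transforms by `χ₋₃`. -/
def hexGroup : Subgroup SL(2, ℤ) where
  carrier := {γ | (3 : ℤ) ∣ γ 1 0 ∧ hexTheta ∣[(1 : ℤ)] γ = chiC (γ 1 1) • hexTheta}
  one_mem' := ⟨by simp, by simp [chiC_one]⟩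
  mul_mem' {a b} ha hb := by
    obtain ⟨ha1, ha2⟩ := ha
    obtain ⟨hb1, hb2⟩ := hb
    have e : ∀ i j, (a * b) i j = a i 0 * b 0 j + a i 1 * b 1 j := fun i j => by
      simp [Matrix.mul_apply, Fin.sum_univ_two]
    refine ⟨?_, ?_⟩
    · rw [e]; exact dvd_add (dvd_mul_of_dvd_left ha1 _) (dvd_mul_of_dvd_right hb1 _)
    · rw [SlashAction.slash_mul, ha2, ModularForm.SL_smul_slash, hb2, smul_smul]
      congr 1
      rw [← chiC_mul]
      refine chiC_congr ?_
      rw [e, show a 1 1 * b 1 1 - (a 1 0 * b 0 1 + a 1 1 * b 1 1) = -(a 1 0 * b 0 1) by ring]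
      exact dvd_neg.2 (dvd_mul_of_dvd_left ha1 _)
  inv_mem' {a} ha := by
    obtain ⟨ha1, ha2⟩ := ha
    have hdet := a.2
    rw [Matrix.det_fin_two] at hdet
    have h10 : (a⁻¹) 1 0 = -(a 1 0) := by
      simp [Matrix.SpecialLinearGroup.coe_inv, Matrix.adjugate_fin_two]
    have h11 : (a⁻¹) 1 1 = a 0 0 := by
      simp [Matrix.SpecialLinearGroup.coe_inv, Matrix.adjugate_fin_two]
    refine ⟨by rw [h10]; exact dvd_neg.2 ha1, ?_⟩
    have h := congrArg (fun f => f ∣[(1 : ℤ)] a⁻¹) ha2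
    simp only [← SlashAction.slash_mul, mul_inv_cancel, SlashAction.slash_one,
      ModularForm.SL_smul_slash] at h
    rw [h11]
    have hu : chiC (a 0 0) * chiC (a 1 1) = 1 := by
      rw [← chiC_mul, ← chiC_one]
      refine chiC_congr ?_
      rw [show a 0 0 * a 1 1 - 1 = a 0 1 * a 1 0 by linear_combination hdet]
      exact dvd_mul_of_dvd_right ha1 _
    conv_rhs => rw [h, smul_smul, hu, one_smul]

/-- `Γ₀(3)` is generated by `T`, `-1` and the lower unipotent. -/
theorem gamma0_three_le_hexGroup : Gamma0 3 ≤ hexGroup := by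
  have hT : T ∈ hexGroup := ⟨by simp [coe_T], by rw [hexTheta_slash_T]; simp [coe_T, chiC_one]⟩
  have hneg : (-1 : SL(2, ℤ)) ∈ hexGroup := by
    refine ⟨by simp, ?_⟩
    rw [hexTheta_slash_neg_one]
    simp [chiC_neg_one]
  have hL : lowerThree ∈ hexGroup := by
    refine ⟨by simp [lowerThree], ?_⟩
    rw [hexTheta_slash_lower]
    simp [lowerThree, chiC_one]
  have : Fact (Nat.Prime 3) := ⟨Nat.prime_three⟩
  refine Eis.Gamma0_le_of_generators hexGroup hneg hT fun γ hγ => ?_
  have hdet := γ.2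
  rw [Matrix.det_fin_two] at hdet
  have h10 : γ 1 0 = 3 := by simpa using hγ
  have key : γ 0 0 % 3 = 1 ∧ γ 1 1 % 3 = 1 ∨ γ 0 0 % 3 = 2 ∧ γ 1 1 % 3 = 2 := by
    have h3 : (γ 0 0 * γ 1 1) % 3 = 1 := by rw [h10] at hdet; omega
    rw [Int.mul_emod] at h3
    have h1 : γ 0 0 % 3 = 0 ∨ γ 0 0 % 3 = 1 ∨ γ 0 0 % 3 = 2 := by omega
    have h2 : γ 1 1 % 3 = 0 ∨ γ 1 1 % 3 = 1 ∨ γ 1 1 % 3 = 2 := by omega
    rcases h1 with h1 | h1 | h1 <;> rcases h2 with h2 | h2 | h2 <;> rw [h1, h2] at h3 <;>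
      simp_all
  -- reduce to a generator by translations
  have main : ∀ (M : SL(2, ℤ)), M ∈ hexGroup → M 1 0 = 3 →
      γ 0 0 % 3 = M 0 0 % 3 → γ 1 1 % 3 = M 1 1 % 3 → γ ∈ hexGroup := by
    intro M hM hM10 h00 h11
    obtain ⟨i, hi⟩ : (3 : ℤ) ∣ γ 0 0 - M 0 0 := by omega
    obtain ⟨j, hj⟩ : (3 : ℤ) ∣ γ 1 1 - M 1 1 := by omega
    have hMdet := M.2
    rw [Matrix.det_fin_two, hM10] at hMdet
    rw [h10] at hdet
    have : γ = T ^ i * M * T ^ j := by
      ext a b
      fin_cases a <;> fin_cases b <;>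
        simp [coe_T_zpow, Matrix.mul_apply, Matrix.vecMul, dotProduct, Fin.sum_univ_two, hM10, h10]
      · linear_combination hi
      · have h3 : (3 : ℤ) ≠ 0 := by norm_num
        apply mul_left_cancel₀ h3
        linear_combination (-(1 : ℤ)) * hdet + hMdet + γ 1 1 * hi + M 0 0 * hj + 3 * i * hj
      · linear_combination hj
    rw [this]
    exact mul_mem (mul_mem (zpow_mem hT i) hM) (zpow_mem hT j)
  rcases key with ⟨h00, h11⟩ | ⟨h00, h11⟩
  · exact main lowerThree hL (by simp [lowerThree]) (by simp [lowerThree, h00])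
      (by simp [lowerThree, h11])
  · exact main (-lowerThree⁻¹) (by
        rw [show -lowerThree⁻¹ = -1 * lowerThree⁻¹ by simp]
        exact mul_mem hneg (inv_mem hL))
      (by simp [lowerThree, Matrix.SpecialLinearGroup.coe_inv, Matrix.adjugate_fin_two])
      (by simp [lowerThree, Matrix.SpecialLinearGroup.coe_inv, Matrix.adjugate_fin_two, h00])
      (by simp [lowerThree, Matrix.SpecialLinearGroup.coe_inv, Matrix.adjugate_fin_two, h11])

/-- The theta series has weight one and character `χ₋₃` on `Γ₀(3)`. -/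
theorem hexTheta_slash {γ : SL(2, ℤ)} (hγ : γ ∈ Gamma0 3) :
    hexTheta ∣[(1 : ℤ)] γ = chiC (γ 1 1) • hexTheta :=
  (gamma0_three_le_hexGroup hγ).2

/-- The theta series is bounded at every cusp. -/
theorem isBoundedAtImInfty_hexTheta_slash (γ : SL(2, ℤ)) :
    IsBoundedAtImInfty (hexTheta ∣[(1 : ℤ)] γ) := by
  have : Fact (Nat.Prime 3) := ⟨Nat.prime_three⟩
  have h0 := goodFn_hexTheta.bdd
  have hS : IsBoundedAtImInfty (hexTheta ∣[(1 : ℤ)] S) := by
    have e : hexTheta ∣[(1 : ℤ)] S = fun z : ℍ => (-I * (Real.sqrt 3 : ℂ) / 3) *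
        hexTheta ⟨(z : ℂ) / 3, by
          rw [show (z : ℂ) / 3 = ((1 / 3 : ℝ) : ℂ) * z by push_cast; ring, Complex.im_ofReal_mul]
          have := z.im_pos
          positivity⟩ := by
      funext z
      rw [ModularForm.SL_slash_apply, ModularGroup.denom_S]
      set z3 : ℍ := ⟨(z : ℂ) / 3, _⟩ with hz3
      have hz : (z : ℂ) ≠ 0 := z.ne_zero
      have hc : ((S • z : ℍ) : ℂ) = -1 / (3 * (z3 : ℂ)) := by
        rw [UpperHalfPlane.modular_S_smul]
        simp [hz3]
        field_simp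
      rw [hexTheta_fricke z3 (S • z) hc, zpow_neg_one]
      simp [hz3]
      field_simp
    rw [e]
    rw [UpperHalfPlane.isBoundedAtImInfty_iff] at h0 ⊢
    obtain ⟨M, A, hA⟩ := h0
    refine ⟨‖-I * (Real.sqrt 3 : ℂ) / 3‖ * M, 3 * A, fun z hz => ?_⟩
    rw [norm_mul]
    refine mul_le_mul_of_nonneg_left (hA _ ?_) (norm_nonneg _)
    show A ≤ ((z : ℂ) / 3).im
    rw [show (z : ℂ) / 3 = ((1 / 3 : ℝ) : ℂ) * z by push_cast; ring, Complex.im_ofReal_mul]
    have : (z : ℂ).im = z.im := rfl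
    rw [this]
    linarith
  rcases Eis.mem_or_exists_coset (p := 3) γ with h | ⟨n, h⟩
  · rw [hexTheta_slash h]
    exact h0.const_mul_left (chiC (γ 1 1))
  · have hγ : γ = γ * (Eis.stMat n)⁻¹ * Eis.stMat n := by simp
    rw [hγ, SlashAction.slash_mul, hexTheta_slash h, ModularForm.SL_smul_slash]
    refine Filter.BoundedAtFilter.smul (c := chiC ((γ * (Eis.stMat n)⁻¹) 1 1)) ?_
    rw [Eis.stMat, SlashAction.slash_mul]
    convert! Eis.isBoundedAtImInfty_vadd hS (n : ℝ) using 1
    funext τ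
    exact Eis.slash_T_zpow_apply _ n τ

end Fermat.Agent.ResidualThree
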