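import Mathlib.NumberTheory.ModularForms.CongruenceSubgroups
import Fermat.Prelude.Thm_ModularForm_isBoundedAtImInfty_heckeU
import Fermat.Prelude.Thm_ModularForm_mdifferentiable_heckeU
import Fermat.Prelude.Thm_ModularForm_periodic_heckeU_comp_ofComplex
import Fermat.Prelude.Thm_UpperHalfPlane_qCoeff_heckeT
import Fermat.Prelude.Thm_UpperHalfPlane_qCoeff_heckeU
import Fermat.Agent.Eis.Expansion
import Fermat.Agent.ResidualThree.WeightTwo.Chi
import Fermat.Agent.ResidualThree.WeightTwo.IntMatrix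

/-!
# Weight-one cusp functions of character `χ₋₃` and their Hecke operators

Cusp functions of weight one and character `χ₋₃`, the Hecke operators on them, their slash
behaviour and their effect on coefficients (`qCoeff_heckeOne`).
-/

noncomputable section

open CongruenceSubgroup UpperHalfPlane ModularFormClass
open scoped ModularForm MatrixGroups Manifold

namespace Fermat.Agent.ResidualThree

/-- A weight-one cusp function of level `N` and character `χ₋₃`. -/
structure IsW1 (N : ℕ) (f : ℍ → ℂ) : Prop where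
  mdiff : MDiff f
  slash : ∀ γ : SL(2, ℤ), γ ∈ Gamma0 N → f ∣[(1 : ℤ)] γ = chiC (γ 1 1) • f
  zero : ∀ c : OnePoint ℝ, IsCusp c 𝒮ℒ → c.IsZeroAt f (1 : ℤ)

theorem isCusp_infty_SL2Z : IsCusp (OnePoint.infty : OnePoint ℝ) 𝒮ℒ := by
  rw [isCusp_SL2Z_iff']
  exact ⟨1, by simp⟩

/-- A weight-one cusp function has period one. -/
theorem IsW1.periodic_one {N : ℕ} {f : ℍ → ℂ} (h : IsW1 N f) (z : ℍ) : f ((1 : ℝ) +ᵥ z) = f z := by
  have h1 := h.slash ModularGroup.T (by simp [Gamma0_mem, ModularGroup.coe_T])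
  have h2 := congrFun h1 z
  rw [show ((ModularGroup.T : SL(2, ℤ)) : Matrix (Fin 2) (Fin 2) ℤ) 1 1 = 1 by
    simp [ModularGroup.coe_T], chiC_one, one_smul, ModularForm.SL_slash_apply,
    UpperHalfPlane.modular_T_smul] at h2
  simpa [ModularGroup.denom_apply, ModularGroup.coe_T] using h2

theorem IsW1.isZeroAtImInfty {N : ℕ} {f : ℍ → ℂ} (h : IsW1 N f) : IsZeroAtImInfty f :=
  OnePoint.isZeroAt_infty_iff.mp (h.zero _ isCusp_infty_SL2Z)

/-- A weight-one cusp function has a convergent expansion at infinity. -/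
theorem IsW1.goodFn {N : ℕ} {f : ℍ → ℂ} (h : IsW1 N f) : Eis.GoodFn 1 f where
  periodic := by
    intro w
    rcases lt_or_ge 0 w.im with hw | hw
    · have hw' : 0 < (w + ((1 : ℝ) : ℂ)).im := by simpa using hw
      simp only [Function.comp_apply, ofComplex_apply_of_im_pos hw', ofComplex_apply_of_im_pos hw]
      rw [← h.periodic_one ⟨w, hw⟩]
      congr 1
      exact UpperHalfPlane.ext (by simp [UpperHalfPlane.coe_vadd, add_comm])
    · have hw' : (w + ((1 : ℝ) : ℂ)).im ≤ 0 := by simpa using hw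
      simp only [Function.comp_apply, ofComplex_apply_of_im_nonpos hw',
        ofComplex_apply_of_im_nonpos hw]
  holo := h.mdiff
  bdd := Filter.ZeroAtFilter.boundedAtFilter h.isZeroAtImInfty

variable {N : ℕ} {f g : ℍ → ℂ}

theorem IsW1.zero_fun : IsW1 N (0 : ℍ → ℂ) where
  mdiff := mdifferentiable_const
  slash γ _ := by rw [SlashAction.zero_slash, smul_zero]
  zero c _ := by
    intro g _
    rw [SlashAction.zero_slash]
    exact Filter.zero_zeroAtFilter _

theorem IsW1.add (hf : IsW1 N f) (hg : IsW1 N g) : IsW1 N (f + g) where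
  mdiff := hf.mdiff.add hg.mdiff
  slash γ hγ := by rw [SlashAction.add_slash, hf.slash γ hγ, hg.slash γ hγ, smul_add]
  zero c hc := (hf.zero c hc).add (hg.zero c hc)

theorem IsW1.smul (hf : IsW1 N f) (a : ℂ) : IsW1 N (a • f) where
  mdiff := hf.mdiff.const_smul a
  slash γ hγ := by rw [ModularForm.SL_smul_slash, hf.slash γ hγ, smul_comm]
  zero c hc := by
    intro g hg
    rw [ModularForm.smul_slash]
    exact (hf.zero c hc g hg).smul _

/-- A cusp form of weight one and character `χ₋₃` as a function. -/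
theorem isW1_of_cusp [NeZero N] {g : CuspForm (Gamma1 N) 1}
    (hg : ∀ γ : SL(2, ℤ), γ ∈ Gamma0 N → (⇑g) ∣[(1 : ℤ)] γ =
      ((EisensteinWeightOne.chiNegThree ((γ 1 1 % 3).toNat) : ℤ) : ℂ) • (⇑g)) :
    IsW1 N (⇑g) := by
  refine ⟨g.holo', fun γ hγ => ?_, fun c hc => ?_⟩
  · rw [hg γ hγ, chiNegThree_toNat]
    rfl
  · exact g.zero_at_cusps' (by rwa [Subgroup.IsArithmetic.isCusp_iff_isCusp_SL2Z])

/-- The weights of the representatives. -/
def repWeight (ℓ : ℕ) : Option (ZMod ℓ) → ℂ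
  | some _ => 1
  | none => chiC ℓ

/-- The Hecke operator in weight one with character `χ₋₃`. -/
def heckeOne (ℓ : ℕ) (f : ℍ → ℂ) : ℍ → ℂ :=
  ModularForm.heckeU 1 ℓ f + chiC ℓ • (f ∣[(1 : ℤ)] ModularForm.heckeDiagMatrix ℓ)

/-- A sum over `range m` as a sum over the residues modulo `m`. -/
theorem sum_range_eq_sum_zmod {m : ℕ} [NeZero m] {A : Type*} [AddCommMonoid A] (F : ℕ → A) :
    ∑ j ∈ Finset.range m, F j = ∑ i : ZMod m, F i.val :=
  Finset.sum_nbij' (fun j => (j : ZMod m)) ZMod.val (fun _ _ => Finset.mem_univ _)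
    (fun i _ => Finset.mem_range.2 (ZMod.val_lt i))
    (fun _ hj => ZMod.val_natCast_of_lt (Finset.mem_range.1 hj))
    (fun i _ => ZMod.natCast_zmod_val i)
    (fun _ hj => congrArg F (ZMod.val_natCast_of_lt (Finset.mem_range.1 hj)).symm)

/-- The operator as a weighted sum of slashes by the representatives. -/
theorem heckeOne_eq_sum {ℓ : ℕ} [Fact ℓ.Prime] (f : ℍ → ℂ) :
    heckeOne ℓ f = ∑ i : Option (ZMod ℓ), repWeight ℓ i • (f ∣[(1 : ℤ)] intGL (hRep ℓ i)) := by
  have hℓ := (Fact.out : ℓ.Prime).ne_zero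
  have : NeZero ℓ := ⟨hℓ⟩
  rw [Fintype.sum_option, heckeOne, ModularForm.heckeU_def, intGL_hRep_none hℓ, add_comm]
  congr 1
  rw [sum_range_eq_sum_zmod]
  exact Finset.sum_congr rfl fun j _ => by rw [repWeight, one_smul, intGL_hRep_some hℓ]

/-- **Slashing a Hecke operator.**  If `f ∣ M = μ(M) Φ` on a class `P` of matrices, and moving a
representative past `M` stays in `P` and multiplies `μ` by `c`, then `T_ℓ f ∣ M = c μ(M) T_ℓ Φ`. -/
theorem heckeOne_slash {ℓ : ℕ} (hℓ : ℓ.Prime) (f Φ : ℍ → ℂ) (P : Matrix (Fin 2) (Fin 2) ℤ → Prop)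
    (μ : Matrix (Fin 2) (Fin 2) ℤ → ℂ) (hf : ∀ M, P M → f ∣[(1 : ℤ)] intGL M = μ M • Φ)
    {M : Matrix (Fin 2) (Fin 2) ℤ} (hpos : 0 < M.det) (hℓM : ¬ (ℓ : ℤ) ∣ M.det) (c : ℂ)
    (hstep : ∀ (i k : Option (ZMod ℓ)) (M' : Matrix (Fin 2) (Fin 2) ℤ),
      hRep ℓ i * M = M' * hRep ℓ k → M'.det = M.det →
        P M' ∧ repWeight ℓ i * μ M' = c * μ M * repWeight ℓ k) :
    heckeOne ℓ f ∣[(1 : ℤ)] intGL M = (c * μ M) • heckeOne ℓ Φ := by
  have : Fact ℓ.Prime := ⟨hℓ⟩
  have : NeZero ℓ := ⟨hℓ.ne_zero⟩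
  have hdet : ((M.det : ℤ) : ZMod ℓ) ≠ 0 := by
    rwa [Ne, ZMod.intCast_zmod_eq_zero_iff_dvd]
  have hrep : ∀ i : Option (ZMod ℓ), (hRep ℓ i).det ≠ 0 := fun i => by
    rw [det_hRep]; exact_mod_cast hℓ.ne_zero
  rw [heckeOne_eq_sum, heckeOne_eq_sum, SlashAction.sum_slash, Finset.smul_sum]
  refine Fintype.sum_bijective (linePerm M)
    (Finite.injective_iff_bijective.1 (linePerm_injective hdet)) _ _ fun i => ?_
  obtain ⟨M', hM', hd⟩ := exists_hRep_mul (M := M) i
  obtain ⟨hP, hw⟩ := hstep i (linePerm M i) M' hM' hd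
  have hk : 0 < (hRep ℓ (linePerm M i)).det := by rw [det_hRep]; exact_mod_cast hℓ.pos
  rw [smul_slash_intGL hpos, ← SlashAction.slash_mul, ← intGL_mul (hrep i) hpos.ne', hM',
    intGL_mul (hd ▸ hpos.ne') (hrep _), SlashAction.slash_mul, hf M' hP, smul_slash_intGL hk,
    smul_smul, smul_smul, hw]

/-- A prime outside `N` cancels in a divisibility by `N`. -/
theorem natCast_dvd_of_coprime_mul {N ℓ : ℕ} (hℓ : ℓ.Prime) (hN : ¬ ℓ ∣ N) {x : ℤ}
    (h : (N : ℤ) ∣ (ℓ : ℤ) * x) : (N : ℤ) ∣ x :=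
  (Int.isCoprime_iff_nat_coprime.mpr
    (by simpa using ((hℓ.coprime_iff_not_dvd.2 hN).symm))).dvd_of_dvd_mul_left h

/-- The entries of the relation moving a representative past a matrix. -/
theorem entries_of_hRep_mul {ℓ : ℕ} {i k : Option (ZMod ℓ)} {M M' : Matrix (Fin 2) (Fin 2) ℤ}
    (h : hRep ℓ i * M = M' * hRep ℓ k) (a b : Fin 2) :
    (hRep ℓ i) a 0 * M 0 b + (hRep ℓ i) a 1 * M 1 b =
      M' a 0 * (hRep ℓ k) 0 b + M' a 1 * (hRep ℓ k) 1 b := by
  have := congrFun (congrFun h a) b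
  simpa [Matrix.mul_apply, Fin.sum_univ_two] using this

/-- `χ(ℓ)² = 1` for a prime `ℓ ≠ 3`. -/
theorem chiC_natCast_ne {ℓ : ℕ} (hℓ : ℓ.Prime) (h3 : ℓ ≠ 3) : chiC ℓ * chiC ℓ = 1 :=
  chiC_mul_self fun h => h3 ((Nat.prime_dvd_prime_iff_eq Nat.prime_three hℓ).1
    (by exact_mod_cast h)).symm

/-- A multiple of a level divisible by three is divisible by three. -/
theorem dvd_sub_of_dvd_natCast {N : ℕ} (h3 : 3 ∣ N) {x : ℤ} (h : (N : ℤ) ∣ x) : (3 : ℤ) ∣ x :=
  dvd_trans (by exact_mod_cast h3) h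

/-- The operator preserves level and character. -/
theorem IsW1.heckeOne {ℓ : ℕ} (hℓ : ℓ.Prime) (hN : ¬ ℓ ∣ N) (h3N : 3 ∣ N) (hf : IsW1 N f) :
    IsW1 N (heckeOne ℓ f) where
  mdiff := by
    have : Fact ℓ.Prime := ⟨hℓ⟩
    rw [ResidualThree.heckeOne]
    refine (ModularForm.mdifferentiable_heckeU hf.mdiff 1 ℓ).add ?_
    exact (hf.mdiff.slash 1 _).const_smul _
  slash γ hγ := by
    have hℓ3 : ℓ ≠ 3 := fun h => hN (h ▸ h3N)
    have key := heckeOne_slash hℓ f f (fun M => M.det = 1 ∧ (N : ℤ) ∣ M 1 0)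
      (fun M => chiC (M 1 1)) (fun M hM => by
        have hSL := hf.slash ⟨M, hM.1⟩ (by
          rw [Gamma0_mem, ZMod.intCast_zmod_eq_zero_iff_dvd]; exact hM.2)
        rwa [ModularForm.SL_slash, ← intGL_coe_SL] at hSL)
      (M := (γ : Matrix (Fin 2) (Fin 2) ℤ)) (by rw [γ.2]; exact one_pos)
      (by
        rw [γ.2]
        exact fun h => hℓ.one_lt.ne' (Nat.dvd_one.1 (by exact_mod_cast h)))
      1 (fun i k M' h hd => by
        have hγN : (N : ℤ) ∣ γ 1 0 := by
          rw [← ZMod.intCast_zmod_eq_zero_iff_dvd]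
          exact Gamma0_mem.1 hγ
        have e10 := entries_of_hRep_mul h 1 0
        have e11 := entries_of_hRep_mul h 1 1
        have hℓ0 : (ℓ : ℤ) ≠ 0 := Int.natCast_ne_zero.2 hℓ.ne_zero
        have hℓℓ := chiC_natCast_ne hℓ hℓ3
        refine ⟨⟨hd.trans γ.2, ?_⟩, ?_⟩
        · rcases i with _ | i <;> rcases k with _ | k <;> simp [hRep] at e10
          · refine natCast_dvd_of_coprime_mul hℓ hN ?_
            rw [mul_comm, ← e10]; exact hγN
          · exact e10 ▸ hγN
          · refine natCast_dvd_of_coprime_mul hℓ hN ?_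
            rw [mul_comm, ← e10]; exact dvd_mul_of_dvd_right hγN _
          · rw [← e10]; exact dvd_mul_of_dvd_right hγN _
        · have h10' : (3 : ℤ) ∣ γ 1 0 := dvd_sub_of_dvd_natCast h3N hγN
          rcases i with _ | i <;> rcases k with _ | k <;> simp [hRep] at e10 e11 <;>
            simp only [repWeight, one_mul, mul_one]
          · rw [← e11, mul_comm]
          · rw [e11, chiC_congr (a := M' 1 0 * (k.val : ℤ) + M' 1 1 * ℓ) (b := M' 1 1 * ℓ)
              (by rw [add_sub_cancel_right, ← e10]; exact dvd_mul_of_dvd_left h10' _), chiC_mul,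
              mul_comm (chiC (M' 1 1))]
          · rw [← e11, chiC_mul, mul_comm]
          · have : chiC (ℓ * γ 1 1) = chiC (M' 1 1 * ℓ) := by
              rw [e11]
              refine chiC_congr ?_
              rw [add_sub_cancel_right, ← e10]
              exact dvd_mul_of_dvd_left (dvd_mul_of_dvd_right h10' _) _
            rw [chiC_mul, chiC_mul] at this
            have h2 : chiC (ℓ : ℤ) ≠ 0 := fun e => by simp [e] at hℓℓ
            exact mul_left_cancel₀ h2 (by rw [this]; ring))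
    rw [one_mul] at key
    rwa [ModularForm.SL_slash, ← intGL_coe_SL]
  zero c hc := by
    have : Fact ℓ.Prime := ⟨hℓ⟩
    have : NeZero ℓ := ⟨hℓ.ne_zero⟩
    rw [heckeOne_eq_sum]
    refine Finset.sum_induction _ (fun F => OnePoint.IsZeroAt c F (1 : ℤ))
      (fun a b ha hb => ha.add hb) (fun g _ => by
        rw [SlashAction.zero_slash]; exact Filter.zero_zeroAtFilter _) fun i _ g hg => ?_
    rw [ModularForm.smul_slash]
    exact (isZeroAt_slash_intGL hf.zero _ hc g hg).smul _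

/-- Coefficients under the weight-one operator. -/
theorem qCoeff_heckeOne {ℓ : ℕ} (hℓ : ℓ.Prime) (hf : IsW1 N f) (n : ℕ) :
    qCoeff (ResidualThree.heckeOne ℓ f) n =
      qCoeff f (ℓ * n) + chiC ℓ * (if ℓ ∣ n then qCoeff f (n / ℓ) else 0) := by
  have hg := hf.goodFn
  have hper : Function.Periodic (f ∘ ofComplex) 1 := by
    have := hg.periodic
    rwa [Complex.ofReal_one] at this
  have hU := UpperHalfPlane.qCoeff_heckeU hper hg.holo hg.bdd 1 hℓ.ne_zero n
  rw [ModularForm.coeffHeckeU_apply, mul_comm n ℓ] at hU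
  have hD : Eis.GoodFn 1 (f ∣[(1 : ℤ)] ModularForm.heckeDiagMatrix ℓ) ∧
      ∀ n, qCoeff (f ∣[(1 : ℤ)] ModularForm.heckeDiagMatrix ℓ) n =
        if ℓ ∣ n then qCoeff f (n / ℓ) else 0 := by
    let A : PowerSeries ℂ := PowerSeries.mk fun n => if ℓ ∣ n then qCoeff f (n / ℓ) else 0
    have hs : ∀ τ : ℍ, HasSum (fun m => A.coeff m * Function.Periodic.qParam 1 τ ^ m)
        ((f ∣[(1 : ℤ)] ModularForm.heckeDiagMatrix ℓ) τ) := by
      intro τ
      rw [ModularForm.slash_heckeDiagMatrix_apply 1 hℓ.ne_zero]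
      simp only [sub_self, zpow_zero, one_mul]
      have h := hg.hasSum one_pos (ModularForm.heckeDiagMatrix ℓ • τ)
      let e : ℕ → ℕ := fun m => ℓ * m
      have he : Function.Injective e := fun a b h => Nat.eq_of_mul_eq_mul_left hℓ.pos h
      rw [← he.hasSum_iff]
      · convert h using 1
        funext m
        simp only [e, Function.comp_apply, A, PowerSeries.coeff_mk, dvd_mul_right, if_true,
          Nat.mul_div_cancel_left _ hℓ.pos, qCoeff]
        rw [ModularForm.coe_heckeDiagMatrix_smul hℓ.ne_zero, pow_mul]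
        congr 2
        rw [Function.Periodic.qParam, Function.Periodic.qParam, ← Complex.exp_nat_mul]
        congr 1
        ring
      · intro m hm
        simp only [A, PowerSeries.coeff_mk]
        rw [if_neg (fun hd => hm ⟨m / ℓ, Nat.mul_div_cancel' hd⟩), zero_mul]
    refine ⟨Eis.goodFn_of_hasSum one_pos hs, fun n => ?_⟩
    rw [qCoeff, Eis.qExpansion_eq_of_hasSum one_pos A hs]
    simp [A]
  have hUgood : Eis.GoodFn 1 (ModularForm.heckeU 1 ℓ f) := by
    refine ⟨?_, ModularForm.mdifferentiable_heckeU hg.holo 1 ℓ, ?_⟩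
    · rw [Complex.ofReal_one]
      exact ModularForm.periodic_heckeU_comp_ofComplex hper 1 ℓ
    · exact ModularForm.isBoundedAtImInfty_heckeU hg.bdd 1 ℓ
  have hadd := UpperHalfPlane.qExpansion_add (h := 1) (hUgood.analyticAt one_pos)
    ((Eis.GoodFn.analyticAt (f := chiC ℓ • (f ∣[(1 : ℤ)] ModularForm.heckeDiagMatrix ℓ))
      ⟨fun w => congrArg (chiC ℓ • ·) (hD.1.periodic w), hD.1.holo.const_smul _,
        hD.1.bdd.smul _⟩) one_pos)
  rw [qCoeff, ResidualThree.heckeOne, hadd, map_add,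
    UpperHalfPlane.qExpansion_smul (hD.1.analyticAt one_pos)]
  rw [qCoeff] at hU
  simp only [PowerSeries.coeff_smul, smul_eq_mul, hU]
  rw [← hD.2 n]
  rfl

end Fermat.Agent.ResidualThree
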