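import Fermat.Agent.Eis.CuspCoeff
import Fermat.Agent.MF.IntegralBasis
import Fermat.Agent.ResidualThree.WeightTwo.Formal
import Fermat.Agent.ResidualThree.WeightTwo.HexagonalForm
import Fermat.Agent.ResidualThree.WeightTwo.WeightOne

/-!
# Multiplication by the hexagonal theta series: weight one into weight two

The coefficients of `h / θ` for a weight-two form `h` are integral when those of `h` are and are
congruent to them modulo `3`; conversely `f θ` is a weight-two cusp form for `f` of weight one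
(`thetaMul`).
-/

noncomputable section

open CongruenceSubgroup UpperHalfPlane ModularFormClass
open scoped ModularForm MatrixGroups Manifold

namespace Fermat.Agent.ResidualThree

variable {N : ℕ}

/-- The expansion of the hexagonal theta series, over `ℤ`. -/
def hexEZ : PowerSeries ℤ := PowerSeries.mk fun n => (hexCoeff n : ℤ)

/-- Its inverse. -/
def hexIZ : PowerSeries ℤ := PowerSeries.invOfUnit hexEZ 1

theorem hexEZ_mul_hexIZ : hexEZ * hexIZ = 1 :=
  PowerSeries.mul_invOfUnit _ _ (by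
    rw [← PowerSeries.coeff_zero_eq_constantCoeff_apply, hexEZ, PowerSeries.coeff_mk, hexCoeff_zero]
    rfl)

/-- The expansion over `ℂ`. -/
def hexEC : PowerSeries ℂ := PowerSeries.map (Int.castRingHom ℂ) hexEZ

/-- Its inverse over `ℂ`. -/
def hexIC : PowerSeries ℂ := PowerSeries.map (Int.castRingHom ℂ) hexIZ

theorem hexEC_mul_hexIC : hexEC * hexIC = 1 := by
  rw [hexEC, hexIC, ← map_mul, hexEZ_mul_hexIZ, map_one]

theorem qExpansion_hexTheta : qExpansion 1 hexTheta = hexEC := by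
  refine Eis.qExpansion_eq_of_hasSum one_pos _ fun τ => ?_
  convert (hexTheta_fiber τ).2 using 2
  simp [hexEC, hexEZ]

/-- The sequence of coefficients of a power series. -/
def coeffSeq : PowerSeries ℂ →ₗ[ℂ] (ℕ → ℂ) :=
  LinearMap.pi fun n => PowerSeries.coeff n

@[simp] theorem coeffSeq_apply (A : PowerSeries ℂ) (n : ℕ) : coeffSeq A n = A.coeff n := rfl

/-- The expansion of a cusp form of weight two, as a linear map. -/
def qExpLin (N : ℕ) : CuspForm (Gamma0 N) 2 →ₗ[ℂ] PowerSeries ℂ where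
  toFun h := qExpansion 1 ⇑h
  map_add' f g := by
    ext n
    exact Eis.qCoeff_add f g n
  map_smul' c f := by
    ext n
    rw [RingHom.id_apply, PowerSeries.coeff_smul]
    exact Eis.qCoeff_smul c f n

/-- `h ↦` coefficients of `h / θ`. -/
def bSeqLin (N : ℕ) : CuspForm (Gamma0 N) 2 →ₗ[ℂ] (ℕ → ℂ) :=
  coeffSeq ∘ₗ LinearMap.mulRight ℂ hexIC ∘ₗ qExpLin N

theorem bSeqLin_apply (h : CuspForm (Gamma0 N) 2) (n : ℕ) :
    bSeqLin N h n = (qExpansion 1 ⇑h * hexIC).coeff n := rfl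

theorem isIntSeq_mul {A B : PowerSeries ℂ} (hA : IsIntSeq (coeffSeq A))
    (hB : IsIntSeq (coeffSeq B)) : IsIntSeq (coeffSeq (A * B)) := by
  choose a ha using hA
  choose b hb using hB
  refine fun n => ⟨∑ p ∈ Finset.HasAntidiagonal.antidiagonal n, a p.1 * b p.2, ?_⟩
  rw [coeffSeq_apply, PowerSeries.coeff_mul]
  push_cast
  exact Finset.sum_congr rfl fun p _ => by rw [← ha, ← hb]; rfl

theorem isIntSeq_hexIC : IsIntSeq (coeffSeq hexIC) := fun n => ⟨hexIZ.coeff n, by simp [hexIC]⟩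

theorem isIntSeq_hexEC : IsIntSeq (coeffSeq hexEC) := fun n => ⟨hexEZ.coeff n, by simp [hexEC]⟩

/-- `h / θ` is integral exactly when `h` is. -/
theorem isIntSeq_bSeqLin {h : CuspForm (Gamma0 N) 2} :
    IsIntSeq (bSeqLin N h) ↔ h ∈ CuspForm.intLattice N 2 := by
  rw [Eis.mem_intLattice_iff]
  constructor
  · intro hb
    have : IsIntSeq (coeffSeq (qExpansion 1 ⇑h * hexIC * hexEC)) := isIntSeq_mul hb isIntSeq_hexEC
    rwa [mul_assoc, mul_comm hexIC, hexEC_mul_hexIC, mul_one] at this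
  · intro hh
    exact isIntSeq_mul hh isIntSeq_hexIC

/-- Congruence of sequences modulo `3`. -/
def SeqCong (b c : ℕ → ℂ) : Prop := ∀ n, ∃ z : ℤ, b n - c n = 3 * (z : ℂ)

theorem SeqCong.trans {b c d : ℕ → ℂ} (h1 : SeqCong b c) (h2 : SeqCong c d) : SeqCong b d :=
  fun n => by
    obtain ⟨x, hx⟩ := h1 n
    obtain ⟨y, hy⟩ := h2 n
    exact ⟨x + y, by push_cast; linear_combination hx + hy⟩

theorem SeqCong.seqAct {b c : ℕ → ℂ} (h : SeqCong b c) (P : GoodHecke N) :
    SeqCong (seqAct N P b) (seqAct N P c) := by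
  choose z hz using h
  have e : b = c + (3 : ℂ) • fun n => (z n : ℂ) := funext fun n => by
    simp only [Pi.add_apply, Pi.smul_apply, smul_eq_mul, ← hz n]
    ring
  intro n
  obtain ⟨w, hw⟩ := IsIntSeq.seqAct P (b := fun n => (z n : ℂ)) (fun n => ⟨z n, rfl⟩) n
  refine ⟨w, ?_⟩
  rw [e, map_add, map_smul, Pi.add_apply, Pi.smul_apply, hw, smul_eq_mul]
  ring

/-- Modulo `3` dividing by `θ` does nothing. -/
theorem seqCong_bSeqLin {h : CuspForm (Gamma0 N) 2} (hh : h ∈ CuspForm.intLattice N 2) :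
    SeqCong (bSeqLin N h) (fun n => qCoeff ⇑h n) := by
  have hb := isIntSeq_bSeqLin.2 hh
  choose b hb using hb
  intro n
  have key : qCoeff ⇑h n = (qExpansion 1 ⇑h * hexIC * hexEC).coeff n := by
    rw [mul_assoc, mul_comm hexIC, hexEC_mul_hexIC, mul_one]; rfl
  show ∃ z : ℤ, bSeqLin N h n - qCoeff ⇑h n = 3 * (z : ℂ)
  refine ⟨-∑ p ∈ (Finset.HasAntidiagonal.antidiagonal n).erase (n, 0),
    b p.1 * ((hexCoeff p.2 : ℤ) / 3), ?_⟩
  rw [key, PowerSeries.coeff_mul, ← Finset.add_sum_erase _ _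
    (show (n, 0) ∈ Finset.HasAntidiagonal.antidiagonal n by simp)]
  simp only [bSeqLin_apply] at hb ⊢
  rw [show hexEC.coeff 0 = 1 by simp [hexEC, hexEZ, hexCoeff_zero], mul_one, sub_add_eq_sub_sub,
    sub_self, zero_sub]
  push_cast
  rw [mul_neg, Finset.mul_sum]
  congr 1
  refine Finset.sum_congr rfl fun p hp => ?_
  have hp2 : p.2 ≠ 0 := fun h0 => by
    obtain ⟨hne, hpn⟩ := Finset.mem_erase.1 hp
    rw [Finset.HasAntidiagonal.mem_antidiagonal, h0, add_zero] at hpn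
    exact hne (Prod.ext hpn h0)
  obtain ⟨k, hk⟩ := three_dvd_hexCoeff hp2
  rw [hb p.1]
  simp [hexEC, hexEZ, hk]
  ring

/-- `f θ` as a cusp form of weight two. -/
def thetaMul [NeZero N] (h3 : 3 ∣ N) {f : ℍ → ℂ} (hf : IsW1 N f) : CuspForm (Gamma0 N) 2 where
  toFun := f * hexTheta
  slash_action_eq' := by
    rintro _ ⟨γ, hγ, rfl⟩
    show (f * hexTheta) ∣[(2 : ℤ)] γ = f * hexTheta
    have hγ3 : γ ∈ Gamma0 3 := by
      simp only [SetLike.mem_coe, Gamma0_mem, ZMod.intCast_zmod_eq_zero_iff_dvd] at hγ ⊢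
      exact dvd_trans (by exact_mod_cast h3) hγ
    have hd : ¬ (3 : ℤ) ∣ γ 1 1 := by
      intro hdvd
      have h10 : (3 : ℤ) ∣ γ 1 0 := by
        have := (ZMod.intCast_zmod_eq_zero_iff_dvd _ 3).1 (Gamma0_mem.1 hγ3)
        exact_mod_cast this
      have hdet := γ.2
      rw [Matrix.det_fin_two] at hdet
      have : (3 : ℤ) ∣ 1 :=
        hdet ▸ dvd_sub (dvd_mul_of_dvd_right hdvd _) (dvd_mul_of_dvd_right h10 _)
      norm_num at this
    rw [show (2 : ℤ) = 1 + 1 from rfl, ModularForm.mul_slash_SL2, hf.slash γ hγ,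
      hexTheta_slash hγ3, smul_mul_smul_comm, chiC_mul_self hd, one_smul]
  holo' := hf.mdiff.mul goodFn_hexTheta.holo
  zero_at_cusps' := by
    intro c hc
    rw [Subgroup.IsArithmetic.isCusp_iff_isCusp_SL2Z] at hc
    have hc' := hc
    rw [isCusp_SL2Z_iff'] at hc'
    obtain ⟨g, rfl⟩ := hc'
    have h1 := hf.zero _ hc
    rw [OnePoint.IsZeroAt.smul_iff, OnePoint.isZeroAt_infty_iff] at h1 ⊢
    have h2 : (f * hexTheta) ∣[(2 : ℤ)] g = f ∣[(1 : ℤ)] g * hexTheta ∣[(1 : ℤ)] g := by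
      rw [show (2 : ℤ) = 1 + 1 from rfl, ModularForm.mul_slash_SL2]
    show IsZeroAtImInfty ((f * hexTheta) ∣[(2 : ℤ)] g)
    rw [h2]
    exact h1.mul_boundedAtFilter (isBoundedAtImInfty_hexTheta_slash g)

theorem bSeqLin_thetaMul [NeZero N] (h3 : 3 ∣ N) {f : ℍ → ℂ} (hf : IsW1 N f) :
    bSeqLin N (thetaMul h3 hf) = fun n => qCoeff f n := by
  funext n
  rw [bSeqLin_apply, show ⇑(thetaMul h3 hf) = f * hexTheta from rfl,
    qExpansion_mul (hf.goodFn.analyticAt one_pos) (goodFn_hexTheta.analyticAt one_pos),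
    qExpansion_hexTheta, mul_assoc, hexEC_mul_hexIC, mul_one]
  rfl

end Fermat.Agent.ResidualThree
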