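import Fermat.Agent.Eis.CongruentClass
import Fermat.Agent.Eis.Eigen
import Fermat.Agent.Eis.EigenLift
import Fermat.Agent.ResidualThree.WeightTwo.AtkinLehner
import Fermat.Agent.ResidualThree.WeightTwo.ThetaLift

/-!
# A weight-one eigensystem of character `χ₋₃` is congruent modulo `3` to a weight-two eigenform

A weight-one eigensystem gives, through multiplication by the hexagonal theta series and a
lifting of eigensystems on the lattice of integral forms, a weight-two eigenform congruent to it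
modulo a prime over `3` (`exists_eigenform_of_w1`).
-/

noncomputable section

open CongruenceSubgroup UpperHalfPlane ModularFormClass
open scoped ModularForm MatrixGroups Manifold

namespace Fermat.Agent.ResidualThree

variable {N : ℕ}

/-- The weight-one cusp functions, as a submodule. -/
def w1Space (N : ℕ) : Submodule ℂ (ℍ → ℂ) where
  carrier := {f | IsW1 N f}
  zero_mem' := IsW1.zero_fun
  add_mem' ha hb := ha.add hb
  smul_mem' c _ hf := hf.smul c

/-- The coefficients of weight-one functions. -/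
def w1Seq (N : ℕ) : w1Space N →ₗ[ℂ] (ℕ → ℂ) where
  toFun f n := qCoeff (f : ℍ → ℂ) n
  map_add' f g := by
    funext n
    simp only [Pi.add_apply, qCoeff, Submodule.coe_add]
    rw [qExpansion_add ((IsW1.goodFn f.2).analyticAt one_pos)
      ((IsW1.goodFn g.2).analyticAt one_pos),
      map_add]
  map_smul' c f := by
    funext n
    simp only [Pi.smul_apply, RingHom.id_apply, qCoeff, Submodule.coe_smul]
    rw [UpperHalfPlane.qExpansion_smul ((IsW1.goodFn f.2).analyticAt one_pos),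
      PowerSeries.coeff_smul]

/-- A good function is determined by its coefficients. -/
theorem eq_of_qCoeff {f g : ℍ → ℂ} (hf : Eis.GoodFn 1 f) (hg : Eis.GoodFn 1 g)
    (h : ∀ n, qCoeff f n = qCoeff g n) : f = g := by
  funext τ
  refine (hf.hasSum one_pos τ).unique ?_
  convert hg.hasSum one_pos τ using 2
  rw [show (qExpansion 1 f).coeff _ = qCoeff f _ from rfl, h]
  rfl

theorem w1Seq_injective : Function.Injective (w1Seq N) := fun f g h =>
  Subtype.ext (eq_of_qCoeff (IsW1.goodFn f.2) (IsW1.goodFn g.2) fun n => congrFun h n)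

theorem w1Seq_heckeOne {ℓ : ℕ} (hℓ : ℓ.Prime) (hℓN : ¬ ℓ ∣ N) (h3 : 3 ∣ N) (f : w1Space N) :
    w1Seq N ⟨heckeOne ℓ f.1, IsW1.heckeOne hℓ hℓN h3 f.2⟩ = seqHecke ℓ (w1Seq N f) :=
  funext fun n => qCoeff_heckeOne hℓ f.2 n

/-- The weight-one functions of a level divisible by three form a finite-dimensional space. -/
theorem finiteDimensional_w1Space [NeZero N] (h3 : 3 ∣ N) :
    FiniteDimensional ℂ (w1Space N) := by
  have := Eis.finiteDimensional_cuspForm N 2
  have hle : LinearMap.range (w1Seq N) ≤ LinearMap.range (bSeqLin N) := by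
    rintro _ ⟨f, rfl⟩
    exact ⟨thetaMul h3 f.2, bSeqLin_thetaMul h3 f.2⟩
  have := Submodule.finiteDimensional_of_le hle
  exact Module.Finite.equiv (LinearEquiv.ofInjective (w1Seq N) w1Seq_injective).symm

/-- The formal operators preserve the sequences of weight-one functions. -/
theorem seqAct_mem_range_w1Seq (h3 : 3 ∣ N) (P : GoodHecke N) :
    ∀ f : w1Space N, seqAct N P (w1Seq N f) ∈ LinearMap.range (w1Seq N) := by
  induction P using MvPolynomial.induction_on with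
  | C z =>
    intro f
    rw [seqAct_C_apply]
    exact ⟨(z : ℂ) • f, map_smul _ _ _⟩
  | add p q hp hq =>
    intro f
    rw [map_add, LinearMap.add_apply]
    exact add_mem (hp f) (hq f)
  | mul_X p ℓ hp =>
    intro f
    rw [map_mul, seqAct_X, Module.End.mul_apply, ← w1Seq_heckeOne ℓ.2.1 ℓ.2.2 h3]
    exact hp _

/-- **An eigenform for all good primes inside a split eigenspace.** -/
theorem exists_w1_eigen [NeZero N] (h3 : 3 ∣ N) {f₀ : ℍ → ℂ} (hf₀ : IsW1 N f₀) (hne : f₀ ≠ 0)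
    (S : Set (GoodPrime N)) (a : GoodPrime N → ℂ)
    (heq : ∀ ℓ ∈ S, seqHecke ℓ.1 (fun n => qCoeff f₀ n) = a ℓ • fun n => qCoeff f₀ n) :
    ∃ (f : ℍ → ℂ) (lam : GoodPrime N → ℂ), IsW1 N f ∧ f ≠ 0 ∧
      (∀ ℓ, heckeOne ℓ.1 f = lam ℓ • f) ∧ ∀ ℓ ∈ S, lam ℓ = a ℓ := by
  have := finiteDimensional_w1Space h3
  let W : Submodule ℂ (ℕ → ℂ) := LinearMap.range (w1Seq N) ⊓
    ⨅ ℓ ∈ S, Module.End.eigenspace (seqHecke ℓ.1) (a ℓ)
  have hmem : ∀ {b : ℕ → ℂ}, b ∈ W ↔ b ∈ LinearMap.range (w1Seq N) ∧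
      ∀ ℓ ∈ S, seqHecke ℓ.1 b = a ℓ • b := by
    intro b
    simp [W, Submodule.mem_iInf]
  have : FiniteDimensional ℂ W := Submodule.finiteDimensional_of_le inf_le_left
  have hst : ∀ (P : GoodHecke N), ∀ b ∈ W, seqAct N P b ∈ W := by
    intro P b hb
    obtain ⟨⟨f, rfl⟩, hb2⟩ := hmem.1 hb
    refine hmem.2 ⟨seqAct_mem_range_w1Seq h3 P f, fun ℓ hℓ => ?_⟩
    rw [← seqAct_X N ℓ, ← Module.End.mul_apply, ← map_mul, mul_comm, map_mul,
      Module.End.mul_apply, seqAct_X, hb2 ℓ hℓ, map_smul]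
  let ρ : GoodHecke N →+* Module.End ℂ W :=
    { toFun := fun P => (seqAct N P).restrict (hst P)
      map_one' := LinearMap.ext fun b => Subtype.ext (by simp)
      map_mul' := fun P Q => LinearMap.ext fun b => Subtype.ext (by simp)
      map_zero' := LinearMap.ext fun b => Subtype.ext (by simp)
      map_add' := fun P Q => LinearMap.ext fun b => Subtype.ext (by simp) }
  have hw₀ : (fun n => qCoeff f₀ n) ∈ W := hmem.2 ⟨⟨⟨f₀, hf₀⟩, rfl⟩, heq⟩
  have hw₀' : (⟨_, hw₀⟩ : W) ≠ 0 := fun h =>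
    hne (congrArg Subtype.val (w1Seq_injective (a₁ := ⟨f₀, hf₀⟩) (a₂ := 0)
      ((congrArg Subtype.val h).trans (map_zero (w1Seq N)).symm)))
  obtain ⟨v, -, hv0, hv⟩ := Eis.exists_common_eigenvector ρ ⊤ (fun _ _ _ => trivial)
    ((Submodule.ne_bot_iff _).2 ⟨⟨_, hw₀⟩, trivial, hw₀'⟩)
  obtain ⟨⟨f, hfv⟩, hv2⟩ := hmem.1 v.2
  choose c hc using hv
  have hfn : f.1 ≠ 0 := fun h => hv0 (Subtype.ext (by
    rw [← hfv, show f = 0 from Subtype.ext h, map_zero]
    rfl))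
  have heig : ∀ ℓ : GoodPrime N, seqHecke ℓ.1 (v : ℕ → ℂ) = c (MvPolynomial.X ℓ) • (v : ℕ → ℂ) :=
    fun ℓ => by
      rw [← seqAct_X N ℓ]
      exact congrArg Subtype.val (hc (MvPolynomial.X ℓ))
  refine ⟨f.1, fun ℓ => c (MvPolynomial.X ℓ), f.2, hfn, fun ℓ => ?_, fun ℓ hℓ => ?_⟩
  · refine congrArg Subtype.val (w1Seq_injective (a₁ := ⟨_, IsW1.heckeOne ℓ.2.1 ℓ.2.2 h3 f.2⟩)
      (a₂ := c (MvPolynomial.X ℓ) • f) ?_)
    rw [w1Seq_heckeOne ℓ.2.1 ℓ.2.2 h3, map_smul, hfv, heig]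
  · exact smul_left_injective ℂ (fun h => hv0 (Subtype.ext h)) ((heig ℓ).symm.trans (hv2 ℓ hℓ))

/-- An eigen cusp function keeping given eigenvalues at the primes `p ≡ 1 (mod 3)` outside `S`. -/
theorem exists_w1_eigen_split [NeZero N] (h3 : 3 ∣ N) {f₀ : ℍ → ℂ} (hf₀ : IsW1 N f₀)
    (hne : f₀ ≠ 0) (S : Finset ℕ) (a : ℕ → ℂ)
    (hrec : ∀ p : ℕ, p.Prime → p ∉ S → p % 3 = 1 → ∀ n, qCoeff f₀ (p * n) +
      (if p ∣ n then qCoeff f₀ (n / p) else 0) = a p * qCoeff f₀ n) :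
    ∃ (f : ℍ → ℂ) (lam : GoodPrime N → ℂ), IsW1 N f ∧ f ≠ 0 ∧
      (∀ ℓ, heckeOne ℓ.1 f = lam ℓ • f) ∧
      ∀ ℓ : GoodPrime N, ℓ.1 % 3 = 1 → ℓ.1 ∉ S → lam ℓ = a ℓ.1 := by
  obtain ⟨f, lam, hf, hfne, heig, hlam⟩ := exists_w1_eigen h3 hf₀ hne
    {ℓ | ℓ.1 % 3 = 1 ∧ ℓ.1 ∉ S} (fun ℓ => a ℓ.1) (by
      rintro ℓ ⟨hmod, hℓS⟩
      funext n
      have hχ : chiC ((ℓ.1 : ℕ) : ℤ) = 1 := by
        rw [← chiC_one]
        exact chiC_congr (by omega)
      rw [seqHecke_apply, hχ, one_mul]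
      exact hrec ℓ.1 ℓ.2.1 hℓS hmod n)
  exact ⟨f, lam, hf, hfne, heig, fun ℓ hmod hℓS => hlam ℓ ⟨hmod, hℓS⟩⟩

/-- The other member of the twist pair. -/
theorem exists_w1_twist {Q r : ℕ} (hQ : 3 ∣ Q) (hQ3 : ∀ p : ℕ, p.Prime → p ∣ Q → p = 3)
    (hQ0 : Q ≠ 0) (hr : Nat.Coprime Q r) (hN : N = Q * r) {f : ℍ → ℂ} (hf : IsW1 N f)
    (hne : f ≠ 0) {lam : GoodPrime N → ℂ} (heig : ∀ ℓ, heckeOne ℓ.1 f = lam ℓ • f) :
    ∃ Φ : ℍ → ℂ, IsW1 N Φ ∧ Φ ≠ 0 ∧
      ∀ ℓ : GoodPrime N, heckeOne ℓ.1 Φ = (chiC ℓ.1 * lam ℓ) • Φ := by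
  obtain ⟨Φ, hΦ, hΦ1, hΦne⟩ := exists_alImage hQ hQ0 hr hN hf
  refine ⟨Φ, hΦ1, hΦne hne, fun ℓ => ?_⟩
  obtain ⟨x, y, hxy⟩ := (Int.isCoprime_iff_nat_coprime.2 (by simpa using hr) :
    IsCoprime (Q : ℤ) (r : ℤ))
  set w : Matrix (Fin 2) (Fin 2) ℤ := !![(Q : ℤ) * x, -y; (N : ℤ), (Q : ℤ)] with hw
  have hwd : w.det = Q := by
    rw [hw, Matrix.det_fin_two_of, hN]; push_cast; linear_combination (Q : ℤ) * hxy
  have hwm : IsALMatrix Q N w := ⟨hwd, by simp [hw], by simp [hw], by simp [hw]⟩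
  have hy := hwm.not_three_dvd hQ hN hQ0
  have h1 := IsALImage.heckeOne hQ hN hQ3 hQ0 hΦ ℓ.2.1 ℓ.2.2 w hwm
  rw [heig ℓ, smul_slash_intGL (by rw [hwd]; exact_mod_cast Nat.pos_of_ne_zero hQ0), hΦ w hwm,
    smul_smul, smul_smul] at h1
  have hy2 := chiC_mul_self hy
  have hℓ3 : ℓ.1 ≠ 3 := fun h => ℓ.2.2 (h ▸ (hN ▸ dvd_mul_of_dvd_left hQ r))
  have hℓℓ := chiC_natCast_ne ℓ.2.1 hℓ3
  have h2 := congrArg (fun F => (chiC (w 0 1) * chiC ℓ.1) • F) h1
  simp only [smul_smul] at h2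
  rw [show chiC (w 0 1) * chiC ℓ.1 * (chiC (w 0 1) * chiC ℓ.1) =
      (chiC (w 0 1) * chiC (w 0 1)) * (chiC ℓ.1 * chiC ℓ.1) by ring, hy2, hℓℓ, one_mul,
    one_smul] at h2
  rw [← h2]
  congr 1
  linear_combination (chiC ℓ.1 * lam ℓ) * hy2

/-- The `seqAct`-core of the range of `bSeqLin`. -/
def coreSpace (N : ℕ) : Submodule ℂ (ℕ → ℂ) :=
  ⨅ P : GoodHecke N, (LinearMap.range (bSeqLin N)).comap (seqAct N P)

theorem mem_coreSpace {b : ℕ → ℂ} :
    b ∈ coreSpace N ↔ ∀ P, seqAct N P b ∈ LinearMap.range (bSeqLin N) := by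
  simp [coreSpace, Submodule.mem_iInf]

theorem seqAct_mem_coreSpace {b : ℕ → ℂ} (hb : b ∈ coreSpace N) (P : GoodHecke N) :
    seqAct N P b ∈ coreSpace N :=
  mem_coreSpace.2 fun Q => by
    rw [← Module.End.mul_apply, ← map_mul]
    exact mem_coreSpace.1 hb _

/-- The sequences of integers, as a `ℤ`-submodule. -/
def intSeqs : Submodule ℤ (ℕ → ℂ) where
  carrier := {b | IsIntSeq b}
  zero_mem' n := ⟨0, by simp⟩
  add_mem' {b c} hb hc n := by
    obtain ⟨x, hx⟩ := hb n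
    obtain ⟨y, hy⟩ := hc n
    exact ⟨x + y, by simp [hx, hy]⟩
  smul_mem' z b hb n := by
    obtain ⟨x, hx⟩ := hb n
    exact ⟨z * x, by simp [hx]⟩

/-- The lattice in the core. -/
def coreLattice (N : ℕ) : Submodule ℤ (ℕ → ℂ) := (coreSpace N).restrictScalars ℤ ⊓ intSeqs

/-- The lattice in the core is finitely generated. -/
theorem coreLattice_fg [NeZero N] : (coreLattice N).FG := by
  have hfg := (CuspForm.intLattice_fg N 2).map ((bSeqLin N).restrictScalars ℤ)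
  have := isNoetherian_of_fg_of_noetherian _ hfg
  suffices hle : coreLattice N ≤ Submodule.map ((bSeqLin N).restrictScalars ℤ)
      (CuspForm.intLattice N 2) by
    have := isNoetherian_of_le hle
    exact Module.Finite.iff_fg.1 inferInstance
  intro b hb
  obtain ⟨h, rfl⟩ : b ∈ LinearMap.range (bSeqLin N) := by
    have := mem_coreSpace.1 hb.1 1
    simpa using this
  exact ⟨h, isIntSeq_bSeqLin.1 hb.2, rfl⟩

theorem seqAct_mem_coreLattice {b : ℕ → ℂ} (hb : b ∈ coreLattice N) (P : GoodHecke N) :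
    seqAct N P b ∈ coreLattice N :=
  ⟨seqAct_mem_coreSpace hb.1 P, IsIntSeq.seqAct P hb.2⟩

/-- The range of `bSeqLin` is stable under `ℚ`-linear maps of the values, the integral forms
spanning the cusp forms. -/
theorem comp_mem_range_bSeqLin [NeZero N] (φ : ℂ →ₗ[ℚ] ℂ) {b : ℕ → ℂ}
    (hb : b ∈ LinearMap.range (bSeqLin N)) : φ ∘ b ∈ LinearMap.range (bSeqLin N) := by
  obtain ⟨h, rfl⟩ := hb
  have hint : CuspForm.HasIntegralStructure N 2 := MF.hasIntegralStructure N 2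
  have hh : h ∈ Submodule.span ℂ
      ((CuspForm.intLattice N 2 : Submodule ℤ _) : Set (CuspForm (Gamma0 N) 2)) :=
    hint.symm ▸ Submodule.mem_top
  have : ∀ x : CuspForm (Gamma0 N) 2, x ∈ Submodule.span ℂ
      ((CuspForm.intLattice N 2 : Submodule ℤ _) : Set (CuspForm (Gamma0 N) 2)) →
      ∀ c : ℂ, φ ∘ (c • bSeqLin N x) ∈ LinearMap.range (bSeqLin N) := by
    intro x hx
    induction hx using Submodule.span_induction with
    | mem x hx =>
      intro c
      refine ⟨φ c • x, funext fun n => ?_⟩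
      obtain ⟨z, hz⟩ := isIntSeq_bSeqLin.2 hx n
      rw [map_smul, Pi.smul_apply, Function.comp_apply, Pi.smul_apply, hz, smul_eq_mul, smul_eq_mul,
        mul_comm c, ← zsmul_eq_mul, map_zsmul, zsmul_eq_mul, mul_comm]
    | zero =>
      intro c
      exact ⟨0, funext fun n => by simp⟩
    | add x y _ _ hx hy =>
      intro c
      have e : φ ∘ (c • bSeqLin N (x + y)) = φ ∘ (c • bSeqLin N x) + φ ∘ (c • bSeqLin N y) :=
        funext fun n => by simp
      rw [e]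
      exact add_mem (hx c) (hy c)
    | smul t x _ hx =>
      intro c
      rw [map_smul, smul_smul]
      exact hx _
  have h1 := this h hh 1
  rwa [one_smul] at h1

theorem comp_mem_coreSpace [NeZero N] (φ : ℂ →ₗ[ℚ] ℂ) {b : ℕ → ℂ} (hb : b ∈ coreSpace N) :
    φ ∘ b ∈ coreSpace N :=
  mem_coreSpace.2 fun P => by
    rw [seqAct_comp]
    exact comp_mem_range_bSeqLin φ (mem_coreSpace.1 hb P)

/-- Rationality: the core is spanned by its lattice. -/
theorem coreSpace_le_span [NeZero N] :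
    coreSpace N ≤ Submodule.span ℂ (coreLattice N : Set (ℕ → ℂ)) := by
  classical
  intro b hb
  -- `b` takes values in a finite-dimensional `ℚ`-space
  obtain ⟨h, hh⟩ : b ∈ LinearMap.range (bSeqLin N) := by
    simpa using mem_coreSpace.1 hb 1
  have hint : CuspForm.HasIntegralStructure N 2 := MF.hasIntegralStructure N 2
  have hspan : h ∈ Submodule.span ℂ
      ((CuspForm.intLattice N 2 : Submodule ℤ _) : Set (CuspForm (Gamma0 N) 2)) :=
    hint.symm ▸ Submodule.mem_top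
  obtain ⟨l, hl⟩ := (Finsupp.mem_span_range_iff_exists_finsupp (v := fun x :
    ((CuspForm.intLattice N 2 : Submodule ℤ _) : Set (CuspForm (Gamma0 N) 2)) => x.1)).1
    (by rwa [Subtype.range_coe])
  have hbsum : b = ∑ x ∈ l.support, l x • bSeqLin N x.1 := by
    rw [← hh, ← hl, Finsupp.sum, map_sum]
    exact Finset.sum_congr rfl fun x _ => map_smul _ _ _
  let β := Module.Basis.ofVectorSpace ℚ ℂ
  let K := l.support.biUnion fun x => (β.repr (l x)).support
  let φ : Module.Basis.ofVectorSpaceIndex ℚ ℂ → (ℂ →ₗ[ℚ] ℂ) := fun k =>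
    (Algebra.linearMap ℚ ℂ) ∘ₗ (β.coord k)
  have hdec : b = ∑ k ∈ K, β k • (φ k ∘ b) := by
    funext n
    have hz : ∀ x ∈ l.support, ∃ z : ℤ, bSeqLin N x.1 n = (z : ℂ) := fun x _ =>
      isIntSeq_bSeqLin.2 x.2 n
    rw [Finset.sum_apply]
    simp only [Pi.smul_apply, Function.comp_apply, smul_eq_mul]
    have hbn : b n = ∑ x ∈ l.support, l x * bSeqLin N x.1 n := by
      rw [hbsum, Finset.sum_apply]
      rfl
    have hsupp : (β.repr (b n)).support ⊆ K := by
      intro k hk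
      by_contra hkK
      refine Finsupp.mem_support_iff.1 hk ?_
      rw [hbn, map_sum, Finsupp.finsetSum_apply]
      refine Finset.sum_eq_zero fun x hx => ?_
      obtain ⟨z, hz⟩ := hz x hx
      rw [hz, mul_comm, ← zsmul_eq_mul, map_zsmul, Finsupp.smul_apply,
        Finsupp.notMem_support_iff.1 fun h => hkK (Finset.mem_biUnion.2 ⟨x, hx, h⟩), smul_zero]
    conv_lhs => rw [← β.linearCombination_repr (b n), Finsupp.linearCombination_apply,
      Finsupp.sum_of_support_subset _ hsupp _ (fun i _ => by simp)]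
    refine Finset.sum_congr rfl fun k _ => ?_
    simp [φ, Module.Basis.coord_apply, Rat.smul_def, mul_comm]
  rw [hdec]
  refine Submodule.sum_mem _ fun k _ => Submodule.smul_mem _ _ ?_
  -- clear denominators
  let D : ℕ := ∏ x ∈ l.support, (β.coord k (l x)).den
  have hD : (D : ℂ) ≠ 0 :=
    Nat.cast_ne_zero.2 (Finset.prod_ne_zero_iff.2 fun x _ => Rat.den_nz _)
  have hmem : (D : ℂ) • (φ k ∘ b) ∈ coreLattice N := by
    refine ⟨(coreSpace N).smul_mem _ (comp_mem_coreSpace _ hb), fun n => ?_⟩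
    have hterm : ∀ x ∈ l.support, ∃ z : ℤ,
        (D : ℂ) * φ k (l x * bSeqLin N x.1 n) = (z : ℂ) := by
      intro x hx
      obtain ⟨z, hz⟩ := isIntSeq_bSeqLin.2 x.2 n
      obtain ⟨e, he⟩ : (β.coord k (l x)).den ∣ D := Finset.dvd_prod_of_mem _ hx
      refine ⟨z * e * (β.coord k (l x)).num, ?_⟩
      rw [hz, mul_comm (l x), ← zsmul_eq_mul, map_zsmul, zsmul_eq_mul, he]
      simp only [φ, LinearMap.comp_apply, Algebra.linearMap_apply, eq_ratCast]
      have hq : ((β.coord k (l x)).den : ℂ) * ((β.coord k (l x) : ℚ) : ℂ) =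
          ((β.coord k (l x)).num : ℂ) := by
        rw [mul_comm]
        exact_mod_cast Rat.mul_den_eq_num _
      push_cast
      linear_combination (z : ℂ) * (e : ℂ) * hq
    choose! z hz using hterm
    refine ⟨∑ x ∈ l.support, z x, ?_⟩
    rw [hbsum]
    simp only [Pi.smul_apply, Function.comp_apply, Finset.sum_apply, smul_eq_mul, map_sum,
      Finset.mul_sum]
    push_cast
    exact Finset.sum_congr rfl hz
  have e : φ k ∘ b = (D : ℂ)⁻¹ • ((D : ℂ) • (φ k ∘ b)) := by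
    rw [smul_smul, inv_mul_cancel₀ hD, one_smul]
  rw [e]
  exact Submodule.smul_mem _ _ (Submodule.subset_span hmem)

/-- An eigenvalue on a stable finitely generated lattice is an algebraic integer. -/
theorem isIntegral_of_eigen_of_stable {M : Type*} [AddCommGroup M] [Module ℂ M]
    (E : Module.End ℂ M) (L : Submodule ℤ M) (hfg : L.FG) (hst : ∀ b ∈ L, E b ∈ L) {c : M}
    (hc : c ∈ Submodule.span ℂ (L : Set M)) (hc0 : c ≠ 0) {μ : ℂ} (hμ : E c = μ • c) :
    IsIntegral ℤ μ := by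
  have : Module.Finite ℤ L := Module.Finite.iff_fg.2 hfg
  let E' : Module.End ℤ L := (E.restrictScalars ℤ).restrict hst
  obtain ⟨p, hp, hpE⟩ := Algebra.IsIntegral.isIntegral (R := ℤ) E'
  rw [← Polynomial.aeval_def] at hpE
  have hres : ∀ (q : Polynomial ℤ) (b : L),
      Polynomial.aeval E q (b : M) = ((Polynomial.aeval E' q b : L) : M) := by
    intro q
    induction q using Polynomial.induction_on with
    | C z => intro b; simp
    | add q r hq hr => intro b; simp [map_add, hq b, hr b]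
    | monomial n z h =>
      intro b
      have := h (E' b)
      simp only [map_mul, map_pow, Polynomial.aeval_C, Polynomial.aeval_X, pow_succ,
        ← mul_assoc, Module.End.mul_apply] at this ⊢
      exact this
  have hkill : Polynomial.aeval E p c = 0 := by
    clear hc0 hμ
    induction hc using Submodule.span_induction with
    | mem x hx => rw [show x = ((⟨x, hx⟩ : L) : M) from rfl, hres, hpE]; rfl
    | zero => rw [map_zero]
    | add x y _ _ hx hy => rw [map_add, hx, hy, add_zero]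
    | smul t x _ hx => rw [map_smul, hx, smul_zero]
  have hev : ∀ q : Polynomial ℤ, Polynomial.aeval E q c = (Polynomial.aeval μ q) • c := by
    intro q
    induction q using Polynomial.induction_on with
    | C z => simp [← Int.cast_smul_eq_zsmul ℂ]
    | add q r hq hr => simp [map_add, hq, hr, add_smul]
    | monomial n z h =>
      simp only [map_mul, map_pow, Polynomial.aeval_C, Polynomial.aeval_X, pow_succ,
        ← mul_assoc, Module.End.mul_apply] at h ⊢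
      rw [hμ, map_smul, map_smul, h, smul_smul, mul_comm]
  refine ⟨p, hp, ?_⟩
  rw [← Polynomial.aeval_def]
  exact (smul_eq_zero.1 ((hev p).symm.trans hkill)).resolve_right hc0

section Lift

variable [NeZero N]

/-- The map to the weight-two Hecke algebra. -/
def goodEval (N : ℕ) [NeZero N] : GoodHecke N →ₐ[ℤ] ↥(CuspForm.heckeAlgebra N 2 ∅) :=
  MvPolynomial.aeval fun ℓ : GoodPrime N => CuspForm.heckeFormsGen N 2 ⟨ℓ.1, ℓ.2.1⟩

/-- `χ(ℓ) ≡ ℓ` modulo three. -/
theorem chiC_sub_natCast {ℓ : ℕ} : ∃ z : ℤ, chiC ℓ - (ℓ : ℂ) = 3 * (z : ℂ) := by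
  obtain ⟨w, hw⟩ : (3 : ℤ) ∣ chiZ ((ℓ : ℤ) : ZMod 3) - ℓ := by
    show ((3 : ℕ) : ℤ) ∣ _
    rw [← ZMod.intCast_zmod_eq_zero_iff_dvd _ 3, Int.cast_sub, sub_eq_zero]
    generalize ((ℓ : ℤ) : ZMod 3) = x
    revert x
    decide
  refine ⟨w, ?_⟩
  have := congrArg (Int.cast : ℤ → ℂ) hw
  push_cast at this
  rw [← this]
  rfl

/-- Modulo `3` the formal operators are those of weight two. -/
theorem seqCong_goodEval (P : GoodHecke N) : ∀ h ∈ CuspForm.intLattice N 2,
    SeqCong (seqAct N P (fun n => qCoeff ⇑h n))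
      (fun n => qCoeff ⇑((goodEval N P : Module.End ℂ _) h) n) := by
  induction P using MvPolynomial.induction_on with
  | C z =>
    intro h _ n
    refine ⟨0, ?_⟩
    rw [seqAct_C_apply, Pi.smul_apply, smul_eq_mul]
    have e : ((goodEval N (MvPolynomial.C z) : ↥(CuspForm.heckeAlgebra N 2 ∅)) :
        Module.End ℂ _) h = (z : ℂ) • h := by
      rw [← MvPolynomial.algebraMap_eq, AlgHom.commutes, Subalgebra.coe_algebraMap,
        Algebra.algebraMap_eq_smul_one, LinearMap.smul_apply, Module.End.one_apply,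
        Int.cast_smul_eq_zsmul]
    show (z : ℂ) * qCoeff ⇑h n - qCoeff _ n = _
    rw [e, Eis.qCoeff_smul]
    simp
  | add p q hp hq =>
    intro h hh n
    obtain ⟨x, hx⟩ := hp h hh n
    obtain ⟨y, hy⟩ := hq h hh n
    refine ⟨x + y, ?_⟩
    simp only [map_add, LinearMap.add_apply, Pi.add_apply, Subalgebra.coe_add,
      Eis.qCoeff_add] at hx hy ⊢
    push_cast
    linear_combination hx + hy
  | mul_X p ℓ hp =>
    intro h hh
    set T := CuspForm.heckeFormsGen N 2 ⟨ℓ.1, ℓ.2.1⟩ with hT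
    have hh' : ((T : Module.End ℂ _) h) ∈ CuspForm.intLattice N 2 :=
      CuspForm.mem_intLattice_of_mem_heckeAlgebra one_le_two T.2 hh
    have h1 : SeqCong (seqHecke ℓ.1 (fun n => qCoeff ⇑h n))
        (fun n => qCoeff ⇑((T : Module.End ℂ _) h) n) := by
      intro n
      obtain ⟨z, hz⟩ := chiC_sub_natCast (ℓ := ℓ.1)
      obtain ⟨w, hw⟩ := (Eis.mem_intLattice_iff h).1 hh (n / ℓ.1)
      show ∃ v : ℤ, seqHecke ℓ.1 (fun n => qCoeff ⇑h n) n - qCoeff ⇑((T : Module.End ℂ _) h) n = _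
      rw [hT, CuspForm.heckeFormsGen_of_not_dvd (ℓ := ⟨ℓ.1, ℓ.2.1⟩) ℓ.2.2,
        CuspForm.heckeAlgebra.coe_T, Eis.qCoeff_heckeTLin ℓ.2.1 ℓ.2.2, seqHecke_apply]
      split_ifs
      · refine ⟨z * w, ?_⟩
        rw [hw]
        push_cast
        linear_combination (w : ℂ) * hz
      · exact ⟨0, by simp⟩
    rw [map_mul, seqAct_X, Module.End.mul_apply]
    refine (h1.seqAct p).trans ?_
    have := hp _ hh'
    simpa [goodEval, hT] using this

variable {c : ℕ → ℂ} {lam : GoodPrime N → ℂ}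

/-- The eigenvalue of a formal operator on a sequence in the core is an algebraic integer. -/
theorem isIntegral_aeval (hc : c ∈ coreSpace N) (hc0 : c ≠ 0)
    (heig : ∀ ℓ : GoodPrime N, seqHecke ℓ.1 c = lam ℓ • c) (P : GoodHecke N) :
    IsIntegral ℤ (MvPolynomial.aeval lam P) :=
  isIntegral_of_eigen_of_stable (seqAct N P) (coreLattice N) coreLattice_fg
    (fun _ hb => seqAct_mem_coreLattice hb P) (coreSpace_le_span hc) hc0 (seqAct_eigen heig P)

/-- An operator killed in weight two has eigenvalue divisible by three. -/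
theorem isIntegral_aeval_div (hc : c ∈ coreSpace N) (hc0 : c ≠ 0)
    (heig : ∀ ℓ : GoodPrime N, seqHecke ℓ.1 c = lam ℓ • c) (P : GoodHecke N)
    (hP : goodEval N P = 0) : IsIntegral ℤ (MvPolynomial.aeval lam P / 3) := by
  refine isIntegral_of_eigen_of_stable ((3 : ℂ)⁻¹ • seqAct N P) (coreLattice N) coreLattice_fg
    (fun b hb => ?_) (coreSpace_le_span hc) hc0 ?_
  · rw [LinearMap.smul_apply]
    refine ⟨(coreSpace N).smul_mem _ (seqAct_mem_coreSpace hb.1 P), fun n => ?_⟩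
    obtain ⟨h, hh⟩ : b ∈ LinearMap.range (bSeqLin N) := by simpa using mem_coreSpace.1 hb.1 1
    have hint : h ∈ CuspForm.intLattice N 2 := isIntSeq_bSeqLin.1 (hh.symm ▸ hb.2)
    obtain ⟨z, hz⟩ := ((seqCong_bSeqLin hint).seqAct P).trans (seqCong_goodEval P h hint) n
    refine ⟨z, ?_⟩
    rw [hh, hP] at hz
    simp only [ZeroMemClass.coe_zero, LinearMap.zero_apply, Eis.qCoeff_zero_form, sub_zero] at hz
    rw [Pi.smul_apply, hz, smul_eq_mul, inv_mul_cancel_left₀ (by norm_num : (3 : ℂ) ≠ 0)]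
  · rw [LinearMap.smul_apply, seqAct_eigen heig P, smul_smul, inv_mul_eq_div]

/-- **Weight one to weight two.** -/
theorem exists_eigenform_of_w1 (h3 : 3 ∣ N) {f : ℍ → ℂ} (hf : IsW1 N f) (hne : f ≠ 0)
    (heig : ∀ ℓ : GoodPrime N, heckeOne ℓ.1 f = lam ℓ • f)
    (𝔭 : Ideal (integralClosure ℤ ℂ)) [h𝔭 : 𝔭.IsMaximal]
    (h𝔭3 : (3 : integralClosure ℤ ℂ) ∈ 𝔭) :
    ∃ (g : CuspForm (Gamma0 N) 2) (_ : g.IsNormalizedEigenform)
      (M : Ideal (integralClosure ℤ ℂ)), M.IsMaximal ∧ (3 : integralClosure ℤ ℂ) ∈ M ∧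
      ∀ ℓ : GoodPrime N, ∃ a b : integralClosure ℤ ℂ, (a : ℂ) = qCoeff ⇑g ℓ.1 ∧ (b : ℂ) = lam ℓ ∧
        ∀ z : ℤ, a - (z : integralClosure ℤ ℂ) ∈ M ↔ b - (z : integralClosure ℤ ℂ) ∈ 𝔭 := by
  set c : ℕ → ℂ := fun n => qCoeff f n with hcdef
  have hfin : w1Seq N ⟨f, hf⟩ = c := rfl
  have hc : c ∈ coreSpace N := mem_coreSpace.2 fun P => by
    obtain ⟨g, hg⟩ := seqAct_mem_range_w1Seq h3 P ⟨f, hf⟩
    exact ⟨thetaMul h3 g.2, by rw [bSeqLin_thetaMul, ← hfin, ← hg]; rfl⟩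
  have hc0 : c ≠ 0 := fun h => hne (congrArg Subtype.val
    (w1Seq_injective (a₁ := ⟨f, hf⟩) (a₂ := 0) (h.trans (map_zero (w1Seq N)).symm)))
  have heig' : ∀ ℓ : GoodPrime N, seqHecke ℓ.1 c = lam ℓ • c := fun ℓ => by
    rw [← hfin, ← w1Seq_heckeOne ℓ.2.1 ℓ.2.2 h3, ← map_smul]
    exact congrArg _ (Subtype.ext (heig ℓ))
  let Λ : GoodHecke N →+* integralClosure ℤ ℂ :=
    (MvPolynomial.aeval lam).toRingHom.codRestrict (integralClosure ℤ ℂ)
      (isIntegral_aeval hc hc0 heig')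
  let : Algebra (GoodHecke N) (integralClosure ℤ ℂ) := Λ.toAlgebra
  have : IsScalarTower ℤ (GoodHecke N) (integralClosure ℤ ℂ) :=
    IsScalarTower.of_algebraMap_eq' (RingHom.ext_int _ _)
  have : Algebra.IsIntegral (GoodHecke N) (integralClosure ℤ ℂ) :=
    ⟨fun x => (Algebra.IsIntegral.isIntegral (R := ℤ) x).tower_top⟩
  have : Module.Finite ℤ ↥(CuspForm.heckeAlgebra N 2 ∅) :=
    Eis.moduleFinite_heckeAlgebra (MF.hasIntegralStructure N 2)
  let : Algebra (GoodHecke N) ↥(CuspForm.heckeAlgebra N 2 ∅) := (goodEval N).toRingHom.toAlgebra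
  have : IsScalarTower ℤ (GoodHecke N) ↥(CuspForm.heckeAlgebra N 2 ∅) :=
    IsScalarTower.of_algebraMap_eq' (RingHom.ext_int _ _)
  have : Algebra.IsIntegral (GoodHecke N) ↥(CuspForm.heckeAlgebra N 2 ∅) :=
    ⟨fun x => (Algebra.IsIntegral.isIntegral (R := ℤ) x).tower_top⟩
  have h𝔮 : (𝔭.comap (algebraMap (GoodHecke N) (integralClosure ℤ ℂ))).IsMaximal :=
    Ideal.isMaximal_comap_of_isIntegral_of_isMaximal 𝔭
  have hker : RingHom.ker (algebraMap (GoodHecke N) ↥(CuspForm.heckeAlgebra N 2 ∅)) ≤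
      𝔭.comap (algebraMap (GoodHecke N) (integralClosure ℤ ℂ)) := by
    intro P hP
    rw [Ideal.mem_comap]
    have hint := isIntegral_aeval_div hc hc0 heig' P (RingHom.mem_ker.1 hP)
    have e : algebraMap (GoodHecke N) (integralClosure ℤ ℂ) P =
        3 * (⟨_, hint⟩ : integralClosure ℤ ℂ) := by
      apply Subtype.ext
      show (MvPolynomial.aeval lam) P = 3 * (MvPolynomial.aeval lam P / 3)
      ring
    rw [e]
    exact 𝔭.mul_mem_right _ h𝔭3
  obtain ⟨m, hm, hmc⟩ := Ideal.exists_ideal_over_maximal_of_isIntegral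
    (S := ↥(CuspForm.heckeAlgebra N 2 ∅)) _ hker
  obtain ⟨g, hg, χ, M, hM, hMc, hχ⟩ := Eis.exists_eigenform_of_maximalIdeal m
  have key : ∀ P : GoodHecke N, χ (goodEval N P) ∈ M ↔ Λ P ∈ 𝔭 := by
    intro P
    have h1 : goodEval N P ∈ M.comap χ ↔ goodEval N P ∈ m := by rw [hMc]
    have h2 : P ∈ m.comap (algebraMap (GoodHecke N) ↥(CuspForm.heckeAlgebra N 2 ∅)) ↔
        P ∈ 𝔭.comap (algebraMap (GoodHecke N) (integralClosure ℤ ℂ)) := by rw [hmc]
    exact h1.trans h2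
  refine ⟨g, hg, M, hM, ?_, fun ℓ => ?_⟩
  · have h := (key 3).2 (by rwa [map_ofNat])
    rwa [map_ofNat, map_ofNat] at h
  · refine ⟨χ (CuspForm.heckeFormsGen N 2 ⟨ℓ.1, ℓ.2.1⟩), Λ (MvPolynomial.X ℓ), hχ ℓ.1 ℓ.2.1,
      ?_, fun z => ?_⟩
    · show MvPolynomial.aeval lam (MvPolynomial.X ℓ) = lam ℓ
      rw [MvPolynomial.aeval_X]
    · have h := key (MvPolynomial.X ℓ - (z : GoodHecke N))
      simp only [map_sub, map_intCast, goodEval, MvPolynomial.aeval_X] at h
      exact h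

end Lift

end Fermat.Agent.ResidualThree
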