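import Fermat.Agent.ResidualThree.Interfaces
import Fermat.Agent.ResidualThree.WeightTwo.Compare
import Fermat.Agent.ResidualThree.WeightTwo.Eigen

/-!
# Residual modularity at `3` from the two descents

The cubic and the quadratic descent give a weight-one eigensystem, hence a weight-two eigenform
congruent to the curve at a level free of cubes away from `3`
(`residuallyModular_three_of_descents`).
-/

noncomputable section

open CongruenceSubgroup ModularFormClass WeierstrassCurve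
open scoped MatrixGroups ModularForm WeierstrassCurve.Affine

namespace Fermat.Agent.ResidualThree

open Fermat.Agent.Frey

local notation "Qbar" => AlgebraicClosure ℚ
local notation "GQ" => AlgebraicClosure ℚ ≃ₐ[ℚ] AlgebraicClosure ℚ

variable {W : WeierstrassCurve ℤ} (hΔ : W.Δ ≠ 0)

/-- `rho` is continuous, its kernel being open. -/
theorem continuous_rho : Continuous (rho hΔ) := by
  rw [continuous_def]
  intro s _
  rw [isOpen_iff_forall_mem_open]
  intro x hx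
  refine ⟨(fun y => x * y) '' ((rho hΔ).ker : Set GQ), ?_,
    isOpenMap_mul_left x _ (isOpen_ker_rho hΔ),
    ⟨1, one_mem _, mul_one x⟩⟩
  rintro _ ⟨y, hy, rfl⟩
  show rho hΔ (x * y) ∈ s
  rw [map_mul, MonoidHom.mem_ker.1 hy, mul_one]
  exact hx

/-- The determinant of `rho` is the mod 3 cyclotomic character, as units. -/
theorem det_rho_units (σ : GQ) :
    Matrix.GeneralLinearGroup.det (rho hΔ σ) = modThreeCyclotomicChar σ := by
  refine Units.ext ?_
  rw [Matrix.GeneralLinearGroup.val_det_apply]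
  exact det_rho hΔ σ

/-- The weight-one data give an eigenform congruent to the curve, at the same level. -/
theorem isResiduallyModularOfLevel_of_weightOne (hsurj : Function.Surjective (rho hΔ)) {N : ℕ}
    (hN0 : N ≠ 0) (h3 : 3 ∣ N) (hdata : WeightOneData (rho hΔ) N) :
    W.IsResiduallyModularOfLevel 3 N := by
  classical
  have : NeZero N := ⟨hN0⟩
  obtain ⟨g₀, hg₀, hslash, S, hS⟩ := hdata
  have hW1 : IsW1 N (⇑g₀) := isW1_of_cusp hslash
  have hg₀' : (⇑g₀ : UpperHalfPlane → ℂ) ≠ 0 := fun h => hg₀ (DFunLike.coe_injective h)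
  choose! a ha using hS
  obtain ⟨f, lam, hf, hfne, heig, hlam⟩ := exists_w1_eigen_split h3 hW1 hg₀' S
    (fun p => (a p : ℂ)) fun p hp hpS hmod => (ha p hp hpS hmod).1
  obtain ⟨𝔭, h𝔭, h𝔭3⟩ := FLTPrelim.exists_maximalIdeal_natCast_prime_mem Nat.prime_three
  have := h𝔭
  obtain ⟨g, hg, M, hM, h3M, hab⟩ := exists_eigenform_of_w1 h3 hf hfne heig 𝔭 (by simpa using h𝔭3)
  have := hM
  choose av bv hav hbv hiff using hab
  let aF : ℕ → integralClosure ℤ ℂ := fun ℓ =>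
    if h : ℓ.Prime ∧ ¬ ℓ ∣ N then av ⟨ℓ, h⟩ else 0
  have haF : ∀ ℓ : GoodPrime N, aF ℓ.1 = av ℓ := fun ℓ => dif_pos ℓ.2
  -- the traces at split primes
  have hsplit : ∀ ℓ : ℕ, ℓ.Prime → ¬ ℓ ∣ N → ℓ ∉ S ∪ W.Δ.natAbs.primeFactors → ℓ % 3 = 1 →
      aF ℓ - (W.apOfModel ℓ : integralClosure ℤ ℂ) ∈ M := by
    intro ℓ hℓ hℓN hℓS hmod
    rw [Finset.mem_union, not_or] at hℓS
    rw [haF ⟨ℓ, hℓ, hℓN⟩, hiff]
    obtain ⟨A, σ, hA, hσ⟩ := Gal.exists_liesOverPrime_isFrobeniusAt hℓ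
    have hgood : W.IsGoodPrimeFor ℓ := fun hd => hℓS.2 (Nat.mem_primeFactors.2
      ⟨hℓ, Int.natCast_dvd.1 hd, Int.natAbs_ne_zero.2 hΔ⟩)
    have h : ((a ℓ : ℤ) : ZMod 3) = _ := (ha ℓ hℓ hℓS.1 hmod).2 A hA σ hσ
    rw [trace_rho_frobenius hΔ hℓ (by omega) hgood hA hσ, ← sub_eq_zero, ← Int.cast_sub,
      ZMod.intCast_zmod_eq_zero_iff_dvd] at h
    obtain ⟨z, hz⟩ := h
    have e : bv ⟨ℓ, hℓ, hℓN⟩ = (a ℓ : integralClosure ℤ ℂ) := Subtype.ext (by
      rw [hbv, hlam _ hmod hℓS.1]; simp)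
    rw [e, ← Int.cast_sub, hz, Int.cast_mul]
    exact 𝔭.mul_mem_right _ (by simpa using h𝔭3)
  rcases congruent_or_twist hΔ hsurj hg M h3M aF
      (fun ℓ hℓ hℓN => by rw [haF ⟨ℓ, hℓ, hℓN⟩, hav]) _ hsplit with hcong | htw
  · refine ⟨g, M, hg, hM, by simpa using h3M, fun ℓ hℓ hgood hℓN hℓ3 => ⟨aF ℓ, ?_, ?_⟩⟩
    · rw [haF ⟨ℓ, hℓ, hℓN⟩, hav]
    · exact hcong ℓ hℓ hℓN hℓ3 hgood
  · -- the other member of the twist pair
    obtain ⟨e, r, hr, hN⟩ := Nat.exists_eq_pow_mul_and_not_dvd hN0 3 (by norm_num)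
    have he : e ≠ 0 := fun h => hr (by rwa [hN, h, pow_zero, one_mul] at h3)
    obtain ⟨Φ, hΦ, hΦne, hΦeig⟩ := exists_w1_twist (Q := 3 ^ e) (r := r) (dvd_pow_self 3 he)
      (fun p hp hd => (Nat.prime_dvd_prime_iff_eq hp Nat.prime_three).1 (hp.dvd_of_dvd_pow hd))
      (pow_ne_zero _ (by norm_num))
      (Nat.Coprime.pow_left _ ((Nat.prime_three.coprime_iff_not_dvd).2 hr)) hN hf hfne heig
    obtain ⟨g', hg', M', hM', h3M', hab'⟩ :=
      exists_eigenform_of_w1 h3 hΦ hΦne hΦeig 𝔭 (by simpa using h𝔭3)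
    choose av' bv' hav' hbv' hiff' using hab'
    refine ⟨g', M', hg', hM', by simpa using h3M', fun ℓ hℓ hgood hℓN hℓ3 =>
      ⟨av' ⟨ℓ, hℓ, hℓN⟩, hav' _, (hiff' _ _).2 ?_⟩⟩
    have h1 := htw ℓ hℓ hℓN hℓ3 hgood
    rw [haF ⟨ℓ, hℓ, hℓN⟩, hiff] at h1
    have e1 : bv' ⟨ℓ, hℓ, hℓN⟩ =
        (chiZ (ℓ : ZMod 3) : integralClosure ℤ ℂ) * bv ⟨ℓ, hℓ, hℓN⟩ := Subtype.ext (by
      rw [hbv']
      simp [hbv, chiC])
    have h2 := 𝔭.mul_mem_left (chiZ (ℓ : ZMod 3) : integralClosure ℤ ℂ) h1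
    have hχ : chiZ (ℓ : ZMod 3) * chiZ (ℓ : ZMod 3) = 1 := chiZ_mul_self (by
      rw [Ne, ZMod.natCast_eq_zero_iff]
      exact fun h => hℓ3 ((Nat.prime_dvd_prime_iff_eq Nat.prime_three hℓ).1 h).symm)
    rw [mul_sub, ← e1, ← Int.cast_mul, ← mul_assoc, hχ, one_mul] at h2
    exact h2

/-- **Residual modularity at `3` of a semistable curve with irreducible `E[3]`**, from the cubic
and the quadratic descent: at a level free of cubes away from `3`, and divisible by `9` only if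
inertia at `3` fixes no nonzero point of order three. -/
theorem residuallyModular_three_of_descents (hC : CubicDescent) (hQ : QuadraticDescent)
    (W : WeierstrassCurve ℤ) (hΔ : W.Δ ≠ 0) (hW : W.IsSemistableModel)
    (h3 : W.ModRepIsIrreducible 3) :
    ∃ M : ℕ, 0 < M ∧ W.IsResiduallyModularOfLevel 3 M ∧
      (∀ q : ℕ, q.Prime → q ≠ 3 → ¬ q ^ 3 ∣ M) ∧
      (3 ^ 2 ∣ M →
        ∀ A : ValuationSubring (AlgebraicClosure ℚ), A.LiesOverPrime 3 →
          ∀ x : Submodule.torsionBy ℤ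
              ((W.map (Int.castRingHom ℚ))⁄(AlgebraicClosure ℚ)).Point (3 : ℕ),
            (∀ σ ∈ A.inertiaSubgroupIn ℚ, σ • x = x) → x = 0) := by
  have hsurj := rho_surjective hΔ hW h3
  obtain ⟨n₀, hn₀, hcube, hunr, ⟨D⟩⟩ := hC (rho hΔ) (continuous_rho hΔ) hsurj (det_rho_units hΔ)
    (fun q hq hq3 A hA σ hσ => rho_inertia_cube hΔ hW hq hq3 hA hσ)
  obtain ⟨a, hdata, ha⟩ := hQ (rho hΔ) (continuous_rho hΔ) hsurj (det_rho_units hΔ) n₀ hn₀ D
  refine ⟨3 ^ (a + 1) * n₀, by positivity,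
    isResiduallyModularOfLevel_of_weightOne hΔ hsurj (by positivity)
      (dvd_mul_of_dvd_left (dvd_pow_self 3 (by omega)) _) hdata, ?_, ?_⟩
  · intro q hq hq3 hdvd
    refine hcube q hq hq3 ((Nat.Coprime.dvd_mul_left ?_).1 hdvd)
    exact Nat.Coprime.pow _ _ ((Nat.coprime_primes hq Nat.prime_three).2 hq3)
  · intro h9 A hA x hx
    by_cases hA' : IsCaseA W
    · exfalso
      have hn3 : ¬ 3 ∣ n₀ := hunr fun B hB σ hσ hσ1 =>
        rho_inertia_three_of_isCaseA hΔ hW hA' hB hσ (by rw [det_rho, hσ1, Units.val_one])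
      rw [ha hn3, zero_add, pow_one, pow_two] at h9
      exact hn3 (Nat.dvd_of_mul_dvd_mul_left (by norm_num) h9)
    · exact eq_zero_of_not_isCaseA hA' A hA x hx

end Fermat.Agent.ResidualThree
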