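import Mathlib.Algebra.Field.ZMod
import Mathlib.Data.ZMod.Basic
import Mathlib.LinearAlgebra.Matrix.Adjugate
import Mathlib.LinearAlgebra.Matrix.Determinant.Basic
import Mathlib.Tactic.FieldSimp
import Mathlib.Tactic.LinearCombination
import Mathlib.Tactic.Ring

/-!
# The permutation of the Hecke representatives at a prime by an integer matrix

`R_i M = M' R_(π i)` with `M'` integral, for the representatives `R_i` of determinant `ℓ` indexed
by the projective line over `ℤ/ℓ`. This gives the behaviour of Hecke operators under slashing.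
-/

noncomputable section

namespace Fermat.Agent.ResidualThree

/-- The representatives of determinant `ℓ`, indexed by the projective line over `ℤ/ℓ`. -/
def hRep (ℓ : ℕ) : Option (ZMod ℓ) → Matrix (Fin 2) (Fin 2) ℤ
  | some j => !![1, (j.val : ℤ); 0, (ℓ : ℤ)]
  | none => !![(ℓ : ℤ), 0; 0, 1]

theorem det_hRep (ℓ : ℕ) (i : Option (ZMod ℓ)) : (hRep ℓ i).det = ℓ := by
  cases i <;> simp [hRep, Matrix.det_fin_two_of]

variable {ℓ : ℕ} [Fact ℓ.Prime] (M : Matrix (Fin 2) (Fin 2) ℤ)

/-- The image of a line, as a pair. -/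
def lineImage : Option (ZMod ℓ) → ZMod ℓ × ZMod ℓ
  | some j => ((M 0 0 : ZMod ℓ) + j * (M 1 0 : ZMod ℓ), (M 0 1 : ZMod ℓ) + j * (M 1 1 : ZMod ℓ))
  | none => ((M 1 0 : ZMod ℓ), (M 1 1 : ZMod ℓ))

/-- The line through a pair. -/
def lineThrough (u : ZMod ℓ × ZMod ℓ) : Option (ZMod ℓ) :=
  if u.1 = 0 then none else some (u.2 / u.1)

/-- The permutation of lines. -/
def linePerm (i : Option (ZMod ℓ)) : Option (ZMod ℓ) := lineThrough (lineImage M i)

variable {M}

/-- A matrix invertible modulo `ℓ` permutes the representatives. -/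
theorem linePerm_injective (hM : (M.det : ZMod ℓ) ≠ 0) :
    Function.Injective (linePerm (ℓ := ℓ) M) := by
  intro i j h
  have hcross : (lineImage M i).1 * (lineImage M j).2 - (lineImage M i).2 * (lineImage M j).1 = 0 :=
    by
    unfold linePerm lineThrough at h
    split_ifs at h with h1 h2
    · rw [h1, h2, zero_mul, mul_zero, sub_zero]
    · rename_i h2
      have h' := Option.some.inj h
      rw [div_eq_div_iff h1 h2] at h'
      linear_combination -h'
  rw [Matrix.det_fin_two] at hM
  push_cast at hM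
  rcases i with _ | a <;> rcases j with _ | b
  · rfl
  · refine absurd ?_ hM
    simp only [lineImage] at hcross
    linear_combination -hcross
  · refine absurd ?_ hM
    simp only [lineImage] at hcross
    linear_combination hcross
  · have h0 : (b - a) * ((M 0 0 : ZMod ℓ) * M 1 1 - M 0 1 * M 1 0) = 0 := by
      simp only [lineImage] at hcross
      linear_combination hcross
    rw [sub_eq_zero.1 ((mul_eq_zero.1 h0).resolve_right hM)]

/-- `R_i M = M' R_(π i)` with `M'` integral. -/
theorem exists_hRep_mul (i : Option (ZMod ℓ)) :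
    ∃ M' : Matrix (Fin 2) (Fin 2) ℤ,
      hRep ℓ i * M = M' * hRep ℓ (linePerm M i) ∧ M'.det = M.det := by
  have hℓ : (ℓ : ℤ) ≠ 0 := Int.natCast_ne_zero.2 (Fact.out : ℓ.Prime).ne_zero
  suffices ∃ M' : Matrix (Fin 2) (Fin 2) ℤ, hRep ℓ i * M = M' * hRep ℓ (linePerm M i) by
    obtain ⟨M', h⟩ := this
    refine ⟨M', h, ?_⟩
    have hd := congrArg Matrix.det h
    rw [Matrix.det_mul, Matrix.det_mul, det_hRep, det_hRep, mul_comm M'.det] at hd
    exact (mul_left_cancel₀ hℓ hd).symm
  set P := hRep ℓ i * M * (hRep ℓ (linePerm M i)).adjugate with hP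
  have hdvd : ∀ a b, (ℓ : ℤ) ∣ P a b := by
    intro a b
    rw [← ZMod.intCast_zmod_eq_zero_iff_dvd]
    unfold linePerm lineThrough at hP
    rw [hP]
    rcases i with _ | j <;> split_ifs with hu <;> fin_cases a <;> fin_cases b <;>
      simp [hRep, lineImage, Matrix.mul_apply, Matrix.vecMul, dotProduct, Fin.sum_univ_two,
        Matrix.adjugate_fin_two] at hu ⊢ <;>
      first
        | exact hu
        | (field_simp [hu]; ring)
  refine ⟨Matrix.of fun a b => P a b / ℓ, ?_⟩
  have hsmul : (ℓ : ℤ) • (Matrix.of fun a b => P a b / ℓ) = P := by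
    ext a b
    rw [Matrix.smul_apply, Matrix.of_apply, smul_eq_mul, Int.mul_ediv_cancel' (hdvd a b)]
  have key : (ℓ : ℤ) • (hRep ℓ i * M) =
      (ℓ : ℤ) • ((Matrix.of fun a b => P a b / ℓ) * hRep ℓ (linePerm M i)) := by
    rw [← Matrix.smul_mul (ℓ : ℤ) (Matrix.of fun a b => P a b / ℓ), hsmul, hP, Matrix.mul_assoc,
      Matrix.adjugate_mul, det_hRep,
      Matrix.mul_smul, Matrix.mul_one]
  ext a b
  exact mul_left_cancel₀ hℓ (congrFun (congrFun key a) b)

end Fermat.Agent.ResidualThree
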