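import Mathlib.NumberTheory.ModularForms.BoundedAtCusp
import Mathlib.NumberTheory.ModularForms.Cusps
import Fermat.Prelude.Def_ModularForm_HeckeOperator
import Fermat.Agent.ResidualThree.WeightTwo.HeckePerm

/-!
# Integer matrices of positive determinant in weight-`k` slash actions

Integer matrices of non-zero determinant as elements of `GL₂(ℚ)` and `GL₂(ℝ)`, their products,
and the preservation of vanishing at the cusps when slashing by them.
-/

noncomputable section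

open UpperHalfPlane
open scoped ModularForm MatrixGroups

namespace Fermat.Agent.ResidualThree

/-- An integer matrix as a rational invertible matrix (junk `1` at determinant zero). -/
def ratGL (M : Matrix (Fin 2) (Fin 2) ℤ) : GL (Fin 2) ℚ :=
  if h : M.det = 0 then 1
  else Matrix.GeneralLinearGroup.mkOfDetNeZero (M.map fun z : ℤ => (z : ℚ)) (by
    rw [show M.map (fun z : ℤ => (z : ℚ)) = (Int.castRingHom ℚ).mapMatrix M from rfl,
      ← RingHom.map_det]
    exact Int.cast_ne_zero.2 h)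

/-- An integer matrix as a real invertible matrix. -/
def intGL (M : Matrix (Fin 2) (Fin 2) ℤ) : GL (Fin 2) ℝ :=
  Matrix.GeneralLinearGroup.map (Rat.castHom ℝ) (ratGL M)

theorem intGL_apply {M : Matrix (Fin 2) (Fin 2) ℤ} (h : M.det ≠ 0) (i j : Fin 2) :
    (intGL M : Matrix (Fin 2) (Fin 2) ℝ) i j = (M i j : ℝ) := by
  simp [intGL, ratGL, h]

theorem intGL_mul {M M' : Matrix (Fin 2) (Fin 2) ℤ} (h : M.det ≠ 0) (h' : M'.det ≠ 0) :
    intGL (M * M') = intGL M * intGL M' := by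
  refine Units.ext (Matrix.ext fun i j => ?_)
  rw [intGL_apply (by rw [Matrix.det_mul]; exact mul_ne_zero h h')]
  simp [Units.val_mul, Matrix.mul_apply, intGL_apply h, intGL_apply h']

theorem det_intGL {M : Matrix (Fin 2) (Fin 2) ℤ} (h : 0 < M.det) :
    0 < ((intGL M).det : ℝ) := by
  rw [Matrix.GeneralLinearGroup.val_det_apply, Matrix.det_fin_two, intGL_apply h.ne',
    intGL_apply h.ne', intGL_apply h.ne', intGL_apply h.ne']
  rw [Matrix.det_fin_two] at h
  exact_mod_cast h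

theorem intGL_coe_SL (γ : SL(2, ℤ)) :
    intGL (γ : Matrix (Fin 2) (Fin 2) ℤ) = (γ : GL (Fin 2) ℝ) := by
  refine Units.ext (Matrix.ext fun i j => ?_)
  rw [intGL_apply (by rw [γ.2]; exact one_ne_zero)]
  simp

theorem intGL_hRep_some {ℓ : ℕ} (hℓ : ℓ ≠ 0) (j : ZMod ℓ) :
    intGL (hRep ℓ (some j)) = ModularForm.heckeMatrix ℓ j.val := by
  refine Units.ext (Matrix.ext fun i k => ?_)
  rw [intGL_apply (by rw [det_hRep]; exact_mod_cast hℓ), ModularForm.val_heckeMatrix hℓ]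
  fin_cases i <;> fin_cases k <;> simp [hRep]

theorem intGL_hRep_none {ℓ : ℕ} (hℓ : ℓ ≠ 0) :
    intGL (hRep ℓ none) = ModularForm.heckeDiagMatrix ℓ := by
  refine Units.ext (Matrix.ext fun i k => ?_)
  rw [intGL_apply (by rw [det_hRep]; exact_mod_cast hℓ), ModularForm.val_heckeDiagMatrix hℓ]
  fin_cases i <;> fin_cases k <;> simp [hRep]

theorem smul_slash_intGL {k : ℤ} {M : Matrix (Fin 2) (Fin 2) ℤ} (h : 0 < M.det) (c : ℂ)
    (f : ℍ → ℂ) : (c • f) ∣[k] intGL M = c • (f ∣[k] intGL M) := by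
  rw [ModularForm.smul_slash, UpperHalfPlane.σ, if_pos (det_intGL h), ContinuousAlgEquiv.refl_apply]

/-- The cusps of `SL₂(ℤ)` are permuted by rational matrices. -/
theorem isCusp_intGL_smul {c : OnePoint ℝ} (hc : IsCusp c 𝒮ℒ) (M : Matrix (Fin 2) (Fin 2) ℤ) :
    IsCusp (intGL M • c) 𝒮ℒ := by
  rw [isCusp_SL2Z_iff] at hc ⊢
  obtain ⟨c, rfl⟩ := hc
  exact ⟨ratGL M • c, by rw [intGL, ← Rat.coe_castHom, OnePoint.map_smul]⟩

theorem isZeroAt_slash_intGL {k : ℤ} {f : ℍ → ℂ}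
    (hf : ∀ c : OnePoint ℝ, IsCusp c 𝒮ℒ → c.IsZeroAt f k) (M : Matrix (Fin 2) (Fin 2) ℤ)
    {c : OnePoint ℝ} (hc : IsCusp c 𝒮ℒ) : c.IsZeroAt (f ∣[k] intGL M) k :=
  OnePoint.IsZeroAt.smul_iff.mp (hf _ (isCusp_intGL_smul hc M))

end Fermat.Agent.ResidualThree
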